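import Fermat.Agent.Lib.S21.PermCount

/-!
# (ES-2a) The Shapiro cocycle (owner: helper2, backup of helper6's Cocycle.lean)
-/

set_option autoImplicit false

noncomputable section

namespace Fermat.Agent.Lib.S21

section Coc

variable {G : Type*} [Group G] {Q : Type*} [MulAction G Q]

/-- 1-cocycles of `G` with values in the permutation module `Q → ℂ`. -/
def h2_IsCoc (c : G → (Q → ℂ)) : Prop := ∀ g h : G, c (g * h) = c g + h2_rho Q g (c h)

theorem h2_IsCoc.one {c : G → (Q → ℂ)} (hc : h2_IsCoc c) : c 1 = 0 := by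
  have h := hc 1 1
  rw [mul_one, map_one, Module.End.one_apply] at h
  exact left_eq_add.1 h

theorem h2_IsCoc.inv_of_zero {c : G → (Q → ℂ)} (hc : h2_IsCoc c) {g : G} (hg : c g = 0) :
    c g⁻¹ = 0 := by
  have h := hc g⁻¹ g
  rw [inv_mul_cancel, hc.one, hg, map_zero, add_zero] at h
  exact h.symm

theorem h2_IsCoc.pow {c : G → (Q → ℂ)} (hc : h2_IsCoc c) (g : G) (n : ℕ) :
    c (g ^ n) = h2_norm Q g n (c g) := by
  induction n with
  | zero => simp [h2_norm, hc.one]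
  | succ n ih =>
    rw [pow_succ, hc, ih, h2_norm, h2_norm, Finset.sum_range_succ, LinearMap.add_apply,
      h2_rho_pow]

theorem h2_IsCoc.sub {c c' : G → (Q → ℂ)} (hc : h2_IsCoc c) (hc' : h2_IsCoc c') :
    h2_IsCoc (fun g => c g - c' g) := by
  intro g h
  simp only [hc g h, hc' g h, map_sub]
  abel

/-- Coboundaries are cocycles. -/
theorem h2_isCoc_cob (a : Q → ℂ) : h2_IsCoc (fun g : G => a - h2_rho Q g a) := by
  intro g h
  simp only [map_sub, h2_rho_mul_apply]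
  abel

/-- A cocycle vanishing on generators vanishes. -/
theorem h2_IsCoc.eq_zero {c : G → (Q → ℂ)} (hc : h2_IsCoc c) (s u : G)
    (hgen : Subgroup.closure {s, u} = ⊤) (hs : c s = 0) (hu : c u = 0) (g : G) : c g = 0 := by
  have hg : g ∈ Subgroup.closure {s, u} := by rw [hgen]; trivial
  induction hg using Subgroup.closure_induction with
  | mem x hx =>
    rcases hx with rfl | hx
    · exact hs
    · rw [Set.mem_singleton_iff] at hx; subst hx; exact hu
  | one => exact hc.one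
  | mul x y _ _ hx hy => rw [hc, hx, hy, map_zero, add_zero]
  | inv x _ hx => exact hc.inv_of_zero hx

end Coc

section Shapiro

variable {G : Type} [Group G] (Γ : Subgroup G)

/-- Coset representatives. -/
def h2_rep (q : G ⧸ Γ) : G := Quotient.out q

theorem h2_rep_spec (q : G ⧸ Γ) : ((h2_rep Γ q : G) : G ⧸ Γ) = q := QuotientGroup.out_eq' q

theorem h2_gam_mem (g : G) (q : G ⧸ Γ) :
    (h2_rep Γ q)⁻¹ * g * h2_rep Γ (g⁻¹ • q) ∈ Γ := by
  rw [mul_assoc, ← QuotientGroup.eq, ← smul_eq_mul g, ← MulAction.Quotient.smul_mk, h2_rep_spec,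
    h2_rep_spec, smul_inv_smul]

/-- The element `r_q⁻¹ g r_{g⁻¹ q}` of `Γ`. -/
def h2_gam (g : G) (q : G ⧸ Γ) : Γ := ⟨(h2_rep Γ q)⁻¹ * g * h2_rep Γ (g⁻¹ • q), h2_gam_mem Γ g q⟩

theorem h2_gam_mul (g h : G) (q : G ⧸ Γ) :
    h2_gam Γ (g * h) q = h2_gam Γ g q * h2_gam Γ h (g⁻¹ • q) := by
  apply Subtype.ext
  simp only [h2_gam, Subgroup.coe_mul, mul_inv_rev, mul_smul]
  group

/-- The Shapiro cocycle of a homomorphism `φ : Γ → ℂ`. -/
def h2_coc (φ : Additive Γ →+ ℂ) (g : G) : (G ⧸ Γ) → ℂ :=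
  fun q => φ (Additive.ofMul (h2_gam Γ g q))

theorem h2_coc_isCoc (φ : Additive Γ →+ ℂ) : h2_IsCoc (h2_coc Γ φ) := by
  intro g h
  funext q
  rw [Pi.add_apply, h2_rho_apply]
  simp only [h2_coc]
  rw [h2_gam_mul, ofMul_mul, map_add]

theorem h2_coc_add (φ ψ : Additive Γ →+ ℂ) (g : G) :
    h2_coc Γ (φ + ψ) g = h2_coc Γ φ g + h2_coc Γ ψ g := by
  funext q; rfl

theorem h2_coc_smul (a : ℂ) (φ : Additive Γ →+ ℂ) (g : G) :
    h2_coc Γ (a • φ) g = a • h2_coc Γ φ g := by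
  funext q; rfl

/-- A central element of `Γ` acts trivially on `G ⧸ Γ`. -/
theorem h2_central_smul (z : G) (hz : z ∈ Γ) (hzc : ∀ g : G, z * g = g * z) (q : G ⧸ Γ) :
    z • q = q := by
  induction q using QuotientGroup.induction_on with
  | H g =>
    rw [MulAction.Quotient.smul_mk, smul_eq_mul, hzc, QuotientGroup.eq, mul_inv_rev,
      inv_mul_cancel_right]
    exact Γ.inv_mem hz

theorem h2_coc_central (φ : Additive Γ →+ ℂ) (z : G) (hz : z ∈ Γ) (hzc : ∀ g : G, z * g = g * z)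
    (hz2 : z ^ 2 = 1) : h2_coc Γ φ z = 0 := by
  funext q
  have hq : z⁻¹ • q = q := by
    rw [inv_smul_eq_iff, h2_central_smul Γ z hz hzc]
  have hgam : h2_gam Γ z q = ⟨z, hz⟩ := by
    apply Subtype.ext
    simp only [h2_gam]
    rw [hq, mul_assoc, hzc, inv_mul_cancel_left]
  have h2 : φ (Additive.ofMul (⟨z, hz⟩ : Γ)) + φ (Additive.ofMul (⟨z, hz⟩ : Γ)) = 0 := by
    rw [← map_add, ← ofMul_mul]
    have : (⟨z, hz⟩ : Γ) * ⟨z, hz⟩ = 1 := by
      apply Subtype.ext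
      simp only [Subgroup.coe_mul, Subgroup.coe_one]
      rw [← pow_two, hz2]
    rw [this, ofMul_one, map_zero]
  simp only [h2_coc, hgam, Pi.zero_apply]
  have h3 : (2 : ℂ) * φ (Additive.ofMul (⟨z, hz⟩ : Γ)) = 0 := by rw [two_mul]; exact h2
  exact (mul_eq_zero.1 h3).resolve_left two_ne_zero

/-- Evaluation of the Shapiro cocycle of `γ ∈ Γ` at the base coset. -/
theorem h2_coc_base (φ : Additive Γ →+ ℂ) (γ : Γ) :
    h2_coc Γ φ (γ : G) ((1 : G) : G ⧸ Γ) = φ (Additive.ofMul γ) := by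
  have hq : (γ : G)⁻¹ • ((1 : G) : G ⧸ Γ) = ((1 : G) : G ⧸ Γ) := by
    rw [MulAction.Quotient.smul_mk, smul_eq_mul, mul_one, QuotientGroup.eq, inv_inv, mul_one]
    exact γ.2
  have hr : h2_rep Γ ((1 : G) : G ⧸ Γ) ∈ Γ := by
    have := h2_rep_spec Γ ((1 : G) : G ⧸ Γ)
    rw [QuotientGroup.eq, mul_one] at this
    simpa using Γ.inv_mem this
  have hgam : h2_gam Γ (γ : G) ((1 : G) : G ⧸ Γ)
      = (⟨_, hr⟩ : Γ)⁻¹ * γ * ⟨_, hr⟩ := by
    apply Subtype.ext
    simp only [h2_gam, Subgroup.coe_mul, Subgroup.coe_inv]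
    rw [hq]
  simp only [h2_coc, hgam]
  rw [ofMul_mul, ofMul_mul, ofMul_inv, map_add, map_add, map_neg]
  ring

/-- **(ES-2a) the cocycle contract.** -/
theorem h2_cocycle : CocycleStatement := by
  intro G _ Γ s u z hz hzc hs hu hz2 hgen m hm htm P hP
  set t : G := s⁻¹ * u with ht
  -- `z` acts trivially
  have hzQ : ∀ q : G ⧸ Γ, z • q = q := h2_central_smul Γ z hz hzc
  have hρz : h2_rho (G ⧸ Γ) z = 1 := h2_rho_eq_one_of_trivial z hzQ
  have hρtm : h2_rho (G ⧸ Γ) (t ^ m) = 1 := h2_rho_eq_one_of_trivial _ htm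
  -- the normalising vector
  let aOf : (Additive Γ →+ ℂ) → (G ⧸ Γ → ℂ) := fun φ => (2 : ℂ)⁻¹ • h2_coc Γ φ s
  have hcs : ∀ φ : Additive Γ →+ ℂ, h2_rho (G ⧸ Γ) s (h2_coc Γ φ s) = - h2_coc Γ φ s := by
    intro φ
    have h := h2_coc_isCoc Γ φ s s
    rw [← pow_two, hs, h2_coc_central Γ φ z hz hzc hz2] at h
    exact (neg_eq_of_add_eq_zero_right h.symm).symm
  have haOf : ∀ φ : Additive Γ →+ ℂ, aOf φ - h2_rho (G ⧸ Γ) s (aOf φ) = h2_coc Γ φ s := by
    intro φ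
    simp only [aOf, map_smul, hcs φ, smul_neg, sub_neg_eq_add, ← add_smul]
    norm_num
  -- the normalised cocycle
  let c' : (Additive Γ →+ ℂ) → G → (G ⧸ Γ → ℂ) :=
    fun φ g => h2_coc Γ φ g - (aOf φ - h2_rho (G ⧸ Γ) g (aOf φ))
  have hc' : ∀ φ, h2_IsCoc (c' φ) := fun φ => (h2_coc_isCoc Γ φ).sub (h2_isCoc_cob (aOf φ))
  have hc's : ∀ φ, c' φ s = 0 := by
    intro φ
    simp only [c', haOf φ, sub_self]
  have hc'z : ∀ φ, c' φ z = 0 := by
    intro φ
    simp only [c', h2_coc_central Γ φ z hz hzc hz2, hρz, Module.End.one_apply, sub_self]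
  -- the linear map
  let Θ : P →ₗ[ℂ] (G ⧸ Γ → ℂ) :=
    { toFun := fun φ => c' φ.1 u
      map_add' := by
        intro φ ψ
        simp only [c', aOf, Submodule.coe_add, h2_coc_add, smul_add, map_add]
        abel
      map_smul' := by
        intro a φ
        simp only [c', aOf, Submodule.coe_smul, h2_coc_smul, RingHom.id_apply, map_smul, smul_sub]
        simp only [smul_smul, mul_comm] }
  have hΘ : ∀ φ : P, Θ φ = c' φ.1 u := fun φ => rfl
  refine ⟨Θ, ?_, ?_, ?_⟩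
  · intro φ
    rw [LinearMap.mem_ker, hΘ, ← (hc' φ.1).pow, hu, hc'z]
  · intro φ
    rw [LinearMap.mem_ker, hΘ]
    have h1 : c' φ.1 t = h2_rho (G ⧸ Γ) s⁻¹ (c' φ.1 u) := by
      rw [ht, hc' φ.1, (hc' φ.1).inv_of_zero (hc's φ.1), zero_add]
    rw [← h1, ← (hc' φ.1).pow]
    -- `c' (t^m) = c (t^m) = 0`
    simp only [c', hρtm, Module.End.one_apply, sub_self, sub_zero]
    funext q
    have hq : (t ^ m)⁻¹ • q = q := by rw [inv_smul_eq_iff, htm]
    have hmem : (h2_rep Γ q)⁻¹ * t ^ m * h2_rep Γ q ∈ Γ := by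
      have := h2_gam_mem Γ (t ^ m) q
      rwa [hq] at this
    have hgam : h2_gam Γ (t ^ m) q = ⟨_, hmem⟩ := by
      apply Subtype.ext
      simp only [h2_gam]
      rw [hq]
    simp only [h2_coc, hgam, Pi.zero_apply]
    exact hP φ.1 φ.2 (h2_rep Γ q) hmem
  · intro φ b hb hw
    rw [hΘ] at hw
    -- the cocycle `c'' = c' - ∂b` vanishes on `s` and `u`
    have hc'' : h2_IsCoc (fun g => c' φ.1 g - (b - h2_rho (G ⧸ Γ) g b)) :=
      (hc' φ.1).sub (h2_isCoc_cob b)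
    have hall := hc''.eq_zero s u hgen
      (by simp only [hc's φ.1, hb, sub_self])
      (by simp only [hw, sub_self])
    -- hence `φ = 0`
    apply Subtype.ext
    apply AddMonoidHom.ext
    intro γ'
    obtain ⟨γ, rfl⟩ : ∃ γ : Γ, Additive.ofMul γ = γ' := ⟨Additive.toMul γ', rfl⟩
    have h1 := congrFun (hall (γ : G)) ((1 : G) : G ⧸ Γ)
    have hq : (γ : G)⁻¹ • ((1 : G) : G ⧸ Γ) = ((1 : G) : G ⧸ Γ) := by
      rw [MulAction.Quotient.smul_mk, smul_eq_mul, mul_one, QuotientGroup.eq, inv_inv, mul_one]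
      exact γ.2
    simp only [c', Pi.sub_apply, Pi.zero_apply, h2_rho_apply, hq, sub_self, sub_zero,
      h2_coc_base] at h1
    rw [h1]
    rfl

end Shapiro

end Fermat.Agent.Lib.S21
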