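import Mathlib
import Fermat.Prelude.Def_ModularCurve_PeriodHomPair
import Fermat.Prelude.Def_ModularCurve_GenusNumerics

/-!
# Project S21 (Eichler–Shimura for `periodHomPair`): contracts and assembly

Owner: lead.
-/

set_option autoImplicit false

noncomputable section

namespace Fermat.Agent.Lib.S21

open ModularCurve ModularCurve.Period CongruenceSubgroup
open scoped MatrixGroups

/-- (ES-1) analytic part: the period map is linear, lands in the parabolic homomorphisms, and
the pair map is injective. -/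
def PeriodStatement (N : ℕ) : Prop :=
  ExistsPeriodMapLinear N ∧
  (∀ f : CuspForm (Gamma0 N) 2, periodMap N f ∈ parabolicHoms ℂ (Gamma0 N) ℂ) ∧
  Function.Injective (periodHomPair N)

/-- (ES-2) group-theoretic part: `dim Hom_par(Γ₀(N), ℂ) ≤ 2 g`. -/
def ParabolicDimStatement (N : ℕ) : Prop :=
  FiniteDimensional ℂ (parabolicHoms ℂ (Gamma0 N) ℂ) ∧
  (Module.finrank ℂ (parabolicHoms ℂ (Gamma0 N) ℂ) : ℚ) ≤ 2 * genusFormula N

/-- (S20) `dim S₂(Γ₀(N)) = g`, together with finite-dimensionality. -/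
def DimStatement (N : ℕ) : Prop :=
  FiniteDimensional ℂ (CuspForm (Gamma0 N) 2) ∧
  (Module.finrank ℂ (CuspForm (Gamma0 N) 2) : ℚ) = genusFormula N

/-- **S21 from the contracts.** -/
theorem s21_of_contracts (N : ℕ) (hP : PeriodStatement N) (hG : ParabolicDimStatement N)
    (hD : DimStatement N) :
    Function.Injective (periodHomPair N) ∧
      LinearMap.range (periodHomPair N) = parabolicHoms ℂ (Gamma0 N) ℂ := by
  obtain ⟨hlin, hpar, hinj⟩ := hP
  obtain ⟨hfinP, hdimP⟩ := hG
  obtain ⟨hfinS, hdimS⟩ := hD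
  refine ⟨hinj, ?_⟩
  obtain ⟨pml, hpml, hdef⟩ := periodHomPair_def N hlin
  -- the range is contained in the parabolic homomorphisms
  have hle : LinearMap.range (periodHomPair N) ≤ parabolicHoms ℂ (Gamma0 N) ℂ := by
    rintro _ ⟨⟨f₁, f₂⟩, rfl⟩
    rw [hdef]
    simp only [LinearMap.coprod_apply, LinearMap.comp_apply, LinearMap.add_apply,
      LinearMap.sub_apply, LinearMap.id_apply]
    have h1 : pml f₁ ∈ parabolicHoms ℂ (Gamma0 N) ℂ := by rw [hpml]; exact hpar f₁
    have h2 : pml f₂ ∈ parabolicHoms ℂ (Gamma0 N) ℂ := by rw [hpml]; exact hpar f₂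
    exact Submodule.add_mem _
      (Submodule.add_mem _ h1 (charInvolution_mem_parabolicHoms N ℂ ℂ h1))
      (Submodule.sub_mem _ h2 (charInvolution_mem_parabolicHoms N ℂ ℂ h2))
  -- dimension count
  have hrank : Module.finrank ℂ (LinearMap.range (periodHomPair N))
      = Module.finrank ℂ (CuspForm (Gamma0 N) 2 × CuspForm (Gamma0 N) 2) :=
    LinearMap.finrank_range_of_inj hinj
  have hprod : Module.finrank ℂ (CuspForm (Gamma0 N) 2 × CuspForm (Gamma0 N) 2)
      = 2 * Module.finrank ℂ (CuspForm (Gamma0 N) 2) := by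
    rw [Module.finrank_prod]; ring
  have hge : Module.finrank ℂ (parabolicHoms ℂ (Gamma0 N) ℂ)
      ≤ Module.finrank ℂ (LinearMap.range (periodHomPair N)) := by
    rw [hrank, hprod]
    have : (Module.finrank ℂ (parabolicHoms ℂ (Gamma0 N) ℂ) : ℚ)
        ≤ ((2 * Module.finrank ℂ (CuspForm (Gamma0 N) 2) : ℕ) : ℚ) := by
      push_cast
      rw [hdimS]
      exact hdimP
    exact_mod_cast this
  exact Submodule.eq_of_le_of_finrank_le hle hge

end Fermat.Agent.Lib.S21
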