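/-
Project S21 (helper8): the contract `DimStatement N` (finite dimensionality of `S₂(Γ₀(N))` and
`dim S₂(Γ₀(N)) = genusFormula N`), from project S20.
-/
import Fermat.Agent.Lib.S21.Defs
import Fermat.Agent.Lib.S20.DictExplicit
import Fermat.Agent.Lib.S20.Final
import Fermat.Agent.Lib.S20.CanonicalDim
import Fermat.Agent.Lib.S20.Residue
import Fermat.Agent.Lib.S20.CoordG
import Fermat.Agent.Lib.S20.CFiniteM
import Fermat.Agent.Lib.S20.CInftyM
import Fermat.Agent.Lib.S20.Dict

set_option autoImplicit false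

namespace Fermat.Agent.Lib.S21

open Fermat.Agent.Lib.S20 in
/-- **(S20 for S21)** `S₂(Γ₀(N))` is finite dimensional of dimension `genusFormula N`. -/
theorem h8_dimStatement (N : ℕ) [NeZero N] : DimStatement N :=
  ⟨h8_cuspForm_finite N,
    s20_of_contracts N h8_canonicalDim h8_residue (h2_coordG N) (h2_cFiniteG N) (h5_cInftyG N)
      (h3_dict N)⟩

end Fermat.Agent.Lib.S21
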