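import Mathlib
import Fermat.Agent.Lib.S21.Defs
import Fermat.Agent.Lib.Helper1.S22Sep
import Fermat.Agent.Lib.Helper8.S22Cuspidal

/-!
# Project S21 (ES-1a): the Eichler primitive of a weight-2 cusp form and the period map

Owner: helper1.

For `f : CuspForm (Gamma0 N) 2` the function `Ginf f` (primitive of `f` vanishing at `i∞`, from the
S22 library) satisfies `HasEquivariantPrimitive N f (Ginf f)`; it is the unique such primitive, so
`periodMap N f (ofMul γ) = MS.period f γ`.  Consequences: `ExistsPeriodMapLinear N`, and (given the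
conjugacy classification of parabolic elements) the periods are parabolic homomorphisms.
-/

set_option autoImplicit false

noncomputable section

namespace Fermat.Agent.Lib.S21

open ModularCurve ModularCurve.Period CongruenceSubgroup UpperHalfPlane Filter Topology
open Fermat.Agent.Lib.Helper3.MS Fermat.Agent.Lib.Helper8
open scoped MatrixGroups Manifold ModularForm

variable {N : ℕ} [NeZero N]

/-- A weight-2 cuspidal function is a cuspidal differential. -/
theorem h1_isDiff_of_isCuspidal {H : ℍ → ℂ} (hH : IsCuspidal 2 H) : IsDiff H := by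
  have h := hH.mul_isPolyFun (w := 0) (by norm_num) (isPolyFun_mono (w := 0) (j := 0) le_rfl)
  have e : (H * fun z : ℍ => (z : ℂ) ^ 0) = H := by
    funext z
    simp
  rwa [e] at h

theorem h1_isCuspidal (f : CuspForm (Gamma0 N) 2) : IsCuspidal 2 (⇑f) := isCuspidal_cuspForm f

theorem h1_isDiff (f : CuspForm (Gamma0 N) 2) : IsDiff (⇑f) :=
  h1_isDiff_of_isCuspidal (h1_isCuspidal f)

/-- The primitive vanishing at `i∞` tends to `0` at `i∞` (uniformly in the real part). -/
theorem h1_tendsto_Ginf {H : ℍ → ℂ} (hH : IsCuspidal 2 H) : Tendsto (Ginf H) atImInfty (𝓝 0) := by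
  have h := eich_isZeroAtImInfty hH.expDecay 0
  have e : eich H 0 = Ginf H := by
    funext z
    unfold eich shiftPow
    congr 1
    funext u
    simp
  rw [e] at h
  exact h

omit [NeZero N] in
theorem h1_slash_eq (f : CuspForm (Gamma0 N) 2) (γ : SL(2, ℤ)) (hγ : γ ∈ Gamma0 N) :
    (⇑f ∣[(2 : ℤ)] γ) = ⇑f :=
  SlashInvariantFormClass.slash_action_eq f _ (Subgroup.mem_map.mpr ⟨γ, hγ, rfl⟩)

/-- The transformation law of the Eichler primitive under `Γ₀(N)`. -/
theorem h1_Ginf_smul (f : CuspForm (Gamma0 N) 2) (γ : SL(2, ℤ)) (hγ : γ ∈ Gamma0 N) (z : ℍ) :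
    Ginf (⇑f) (γ • z) = Ginf (⇑f) z + period (⇑f) γ := by
  have h := period_spec (h1_isDiff f) γ z
  rwa [h1_slash_eq f γ hγ] at h

/-- The limit of the Eichler primitive at the cusp `δ ∞`. -/
theorem h1_tendsto_Ginf_smul (f : CuspForm (Gamma0 N) 2) (δ : SL(2, ℤ)) :
    Tendsto (fun w : ℍ => Ginf (⇑f) (δ • w)) atImInfty (𝓝 (period (⇑f) δ)) := by
  have e : (fun w : ℍ => Ginf (⇑f) (δ • w))
      = fun w => Ginf (⇑f ∣[(2 : ℤ)] δ) w + period (⇑f) δ := by
    funext w
    exact period_spec (h1_isDiff f) δ w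
  rw [e]
  have h := (h1_tendsto_Ginf ((h1_isCuspidal f).slash_SL δ)).add_const (period (⇑f) δ)
  rwa [zero_add] at h

/-- **The Eichler primitive is an equivariant primitive.** -/
theorem h1_hasEquivariantPrimitive (f : CuspForm (Gamma0 N) 2) :
    HasEquivariantPrimitive N f (Ginf (⇑f)) := by
  refine ⟨(h1_isDiff f).Ginf_isPrim, h1_tendsto_Ginf (h1_isCuspidal f), ?_, ?_⟩
  · intro γ
    refine ⟨period (⇑f) (γ : SL(2, ℤ)), fun z => ?_⟩
    rw [h1_Ginf_smul f γ γ.2 z]
    ring
  · intro δ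
    exact ⟨_, h1_tendsto_Ginf_smul f δ⟩

/-- Uniqueness of the equivariant primitive. -/
theorem h1_eq_Ginf (f : CuspForm (Gamma0 N) 2) {F : ℍ → ℂ} (hF : HasEquivariantPrimitive N f F) :
    F = Ginf (⇑f) := by
  have h1 : IsPrim F (⇑f) := hF.1
  have h2 : IsPrim (Ginf (⇑f)) (⇑f) := (h1_isDiff f).Ginf_isPrim
  obtain ⟨c, hc⟩ := h1.exists_const h2
  have ht : Tendsto (fun z : ℍ => F z - Ginf (⇑f) z) atImInfty (𝓝 (0 - 0)) :=
    hF.2.1.sub (h1_tendsto_Ginf (h1_isCuspidal f))
  have e : (fun z : ℍ => F z - Ginf (⇑f) z) = fun _ => c := by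
    funext z
    rw [hc z]; ring
  rw [e, sub_zero] at ht
  have hc0 : c = 0 := tendsto_nhds_unique tendsto_const_nhds ht
  funext z
  rw [hc z, hc0, add_zero]

/-- **The period map in terms of the S22 periods.** -/
theorem h1_periodMap_apply (f : CuspForm (Gamma0 N) 2) (γ : Gamma0 N) :
    periodMap N f (Additive.ofMul γ) = period (⇑f) (γ : SL(2, ℤ)) := by
  obtain ⟨F₀, h₀, he⟩ := periodMap_def N f (h1_hasEquivariantPrimitive f)
  rw [he, IsEquivariantPrimitive.periodHom_apply]
  have hF₀ := h1_eq_Ginf f h₀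
  unfold IsEquivariantPrimitive.period
  rw [hF₀, h1_Ginf_smul f γ γ.2]
  ring

theorem h1_periodMap_add (f g : CuspForm (Gamma0 N) 2) :
    periodMap N (f + g) = periodMap N f + periodMap N g := by
  refine AddMonoidHom.ext fun γ => ?_
  obtain ⟨γ, rfl⟩ : ∃ γ' : Gamma0 N, Additive.ofMul γ' = γ := ⟨Additive.toMul γ, rfl⟩
  rw [AddMonoidHom.add_apply, h1_periodMap_apply, h1_periodMap_apply, h1_periodMap_apply]
  have e : (⇑(f + g) : ℍ → ℂ) = ⇑f + ⇑g := rfl
  rw [e, period_add (h1_isDiff f) (h1_isDiff g)]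

theorem h1_periodMap_smul (c : ℂ) (f : CuspForm (Gamma0 N) 2) :
    periodMap N (c • f) = c • periodMap N f := by
  refine AddMonoidHom.ext fun γ => ?_
  obtain ⟨γ, rfl⟩ : ∃ γ' : Gamma0 N, Additive.ofMul γ' = γ := ⟨Additive.toMul γ, rfl⟩
  rw [AddMonoidHom.smul_apply, h1_periodMap_apply, h1_periodMap_apply]
  have e : (⇑(c • f) : ℍ → ℂ) = c • ⇑f := rfl
  rw [e, period_smul (h1_isDiff f), smul_eq_mul]

/-- The period map, as a linear map. -/
def h1_periodLin (N : ℕ) [NeZero N] : CuspForm (Gamma0 N) 2 →ₗ[ℂ] (Additive (Gamma0 N) →+ ℂ) where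
  toFun := periodMap N
  map_add' := h1_periodMap_add
  map_smul' := h1_periodMap_smul

theorem h1_periodLin_apply (f : CuspForm (Gamma0 N) 2) : h1_periodLin N f = periodMap N f := rfl

theorem h1_existsPeriodMapLinear (N : ℕ) [NeZero N] : ExistsPeriodMapLinear N :=
  ⟨h1_periodLin N, fun _ => rfl⟩

/-- The conjugacy classification of parabolic elements, as a hypothesis. -/
def ParabolicConjStatement : Prop :=
  ∀ γ : SL(2, ℤ), ((γ : Matrix (Fin 2) (Fin 2) ℤ)).trace ^ 2 = 4 →
    ∃ (δ : SL(2, ℤ)) (n : ℤ), ∀ z : ℍ, γ • (δ • z) = δ • (ModularGroup.T ^ n • z)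

/-- The periods of the Eichler primitive along parabolic elements vanish. -/
theorem h1_period_parabolic (hconj : ParabolicConjStatement) (f : CuspForm (Gamma0 N) 2)
    (γ : SL(2, ℤ)) (hγ : γ ∈ Gamma0 N)
    (htr : ((γ : Matrix (Fin 2) (Fin 2) ℤ)).trace ^ 2 = 4) : period (⇑f) γ = 0 := by
  obtain ⟨δ, n, hδ⟩ := hconj γ htr
  -- `F (δ (T^n w)) - F (δ w) = period f γ` for all `w`; let `im w → ∞`
  have h1 : ∀ w : ℍ, Ginf (⇑f) (δ • (ModularGroup.T ^ n • w)) - Ginf (⇑f) (δ • w)
      = period (⇑f) γ := by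
    intro w
    rw [← hδ w, h1_Ginf_smul f γ hγ]
    ring
  have ht1 := h1_tendsto_Ginf_smul f δ
  have hTn : Tendsto (fun w : ℍ => ModularGroup.T ^ n • w) atImInfty atImInfty := by
    rw [atImInfty, tendsto_comap_iff]
    have e : (im ∘ fun w : ℍ => ModularGroup.T ^ n • w) = im := by
      funext w
      simp only [Function.comp_apply]
      rw [ModularGroup.im_T_zpow_smul]
    rw [e]
    exact tendsto_comap
  have ht2 := ht1.comp hTn
  have ht3 := ht2.sub ht1
  rw [sub_self] at ht3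
  have e : ((fun w : ℍ => Ginf (⇑f) (δ • w)) ∘ fun w : ℍ => ModularGroup.T ^ n • w)
      - (fun w : ℍ => Ginf (⇑f) (δ • w)) = fun _ => period (⇑f) γ := by
    funext w
    exact h1 w
  have ht4 : Tendsto (fun _ : ℍ => period (⇑f) γ) atImInfty (𝓝 0) := by
    rw [← e]; exact ht3
  exact tendsto_nhds_unique tendsto_const_nhds ht4

/-- The period map lands in the parabolic homomorphisms. -/
theorem h1_periodMap_parabolic (hconj : ParabolicConjStatement) (f : CuspForm (Gamma0 N) 2) :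
    periodMap N f ∈ parabolicHoms ℂ (Gamma0 N) ℂ := by
  rw [mem_parabolicHoms_iff]
  intro γ hγ
  rw [h1_periodMap_apply]
  exact h1_period_parabolic hconj f γ γ.2 hγ

end Fermat.Agent.Lib.S21
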