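/-
S21 / (ES-1)(c) (helper7): conjugacy classification of parabolic elements of `SL(2,ℤ)`.

`h7_parabolicConj : ParabolicConjStatement` (helper1's contract in `PeriodPrim.lean`): every
`γ : SL(2,ℤ)` with `trace² = 4` is, up to sign, conjugate to a power of `T`:
`∃ δ n, ∀ z, γ • (δ • z) = δ • (T ^ n • z)`.
-/
import Mathlib
import Fermat.Agent.Lib.S21.PeriodPrim

set_option autoImplicit false

namespace Fermat.Agent.Lib.S21

open UpperHalfPlane ModularGroup
open scoped MatrixGroups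

/-- A primitive integral eigenvector of a parabolic matrix. -/
theorem h7_parabolic_eigenvector (a b c d : ℤ) (hdet : a * d - b * c = 1)
    (htr : (a + d) ^ 2 = 4) :
    ∃ p q : ℤ, IsCoprime p q ∧ -q * (a * p + b * q) + p * (c * p + d * q) = 0 := by
  by_cases hc : c = 0
  · exact ⟨1, 0, isCoprime_one_left, by rw [hc]; ring⟩
  · -- `ε = ±1` with `a + d = 2 ε`
    obtain ⟨ε, hε1, hε2⟩ : ∃ ε : ℤ, ε * ε = 1 ∧ a + d = 2 * ε := by
      have h4 : (a + d - 2) * (a + d + 2) = 0 := by linear_combination htr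
      rcases mul_eq_zero.mp h4 with h | h
      · exact ⟨1, by norm_num, by linarith⟩
      · exact ⟨-1, by norm_num, by linarith⟩
    set e : ℤ := ε - d with he
    have hquad : e ^ 2 + (d - a) * e - b * c = 0 := by
      rw [he]
      linear_combination (-1) * hε1 + (-ε) * hε2 + hdet
    have hg : 0 < Int.gcd e c := Int.gcd_pos_of_ne_zero_right _ hc
    obtain ⟨p, q, hpq, hep, hcq⟩ := Int.exists_gcd_one hg
    set g : ℤ := (Int.gcd e c : ℤ) with hgdef
    have hg0 : g ≠ 0 := by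
      rw [hgdef]
      exact_mod_cast hg.ne'
    refine ⟨p, q, Int.isCoprime_iff_gcd_eq_one.mpr hpq, ?_⟩
    have hmul : g ^ 2 * (-q * (a * p + b * q) + p * (c * p + d * q))
        = c * (e ^ 2 + (d - a) * e - b * c) := by
      rw [hep, hcq]
      ring
    rw [hquad, mul_zero] at hmul
    rcases mul_eq_zero.mp hmul with h | h
    · exact absurd (pow_eq_zero_iff two_ne_zero |>.mp h) hg0
    · exact h

theorem h7_parabolicConj : ParabolicConjStatement := by
  intro γ htr
  have hdet : γ 0 0 * γ 1 1 - γ 0 1 * γ 1 0 = 1 := by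
    have := γ.det_coe
    rwa [Matrix.det_fin_two] at this
  have htr' : (γ 0 0 + γ 1 1) ^ 2 = 4 := by
    rw [Matrix.trace_fin_two] at htr
    exact htr
  obtain ⟨p, q, hpq, hkey⟩ := h7_parabolic_eigenvector (γ 0 0) (γ 0 1) (γ 1 0) (γ 1 1) hdet htr'
  obtain ⟨δ, hδ0, hδ1⟩ := hpq.exists_SL2_col 0
  have hβ : (δ⁻¹ * γ * δ) 1 0 = 0 := by
    have h1 : (δ⁻¹ * γ * δ) 1 0 = -(δ 1 0) * (γ 0 0 * δ 0 0 + γ 0 1 * δ 1 0)
        + δ 0 0 * (γ 1 0 * δ 0 0 + γ 1 1 * δ 1 0) := by
      simp only [Matrix.SpecialLinearGroup.coe_mul, Matrix.SpecialLinearGroup.coe_inv,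
        Matrix.adjugate_fin_two, Matrix.mul_apply, Fin.sum_univ_two]
      simp
      ring
    rw [h1, hδ0, hδ1]
    exact hkey
  obtain ⟨n, hn⟩ := exists_eq_T_zpow_of_c_eq_zero hβ
  refine ⟨δ, n, fun z => ?_⟩
  rw [← hn z, ← mul_smul, ← mul_smul]
  congr 1
  group

end Fermat.Agent.Lib.S21
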