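import Fermat.Agent.Lib.S21.PermCount

/-!
# (ES-2b') Dimensions of invariants of the permutation module (owner: helper2)
-/

set_option autoImplicit false

noncomputable section

namespace Fermat.Agent.Lib.S21

section Count

variable {G : Type} [Group G] {Q : Type} [MulAction G Q]

/-- The trace of a permutation operator is the number of fixed points. -/
theorem h2_trace_rho [Fintype Q] [DecidableEq Q] (g : G) :
    LinearMap.trace ℂ (Q → ℂ) (h2_rho Q g) = (Fintype.card {q : Q // g • q = q} : ℂ) := by
  rw [LinearMap.trace_eq_matrix_trace ℂ (Pi.basisFun ℂ Q), LinearMap.toMatrix_eq_toMatrix',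
    Matrix.trace]
  simp only [Matrix.diag_apply, LinearMap.toMatrix'_apply, h2_rho_apply, Pi.single_apply]
  rw [Finset.sum_boole, Fintype.card_subtype]
  congr 2
  ext q
  simp only [Finset.mem_filter, Finset.mem_univ, true_and]
  rw [inv_smul_eq_iff, eq_comm]

/-- If `g^p` acts trivially, `p * dim V^g = Σ_{i<p} #Fix(g^i)`. -/
theorem h2_mul_finrank_inv [Fintype Q] [DecidableEq Q] (g : G) (p : ℕ) (hp : 0 < p)
    (hg : ∀ q : Q, g ^ p • q = q) :
    p * Module.finrank ℂ ↥(h2_inv Q g)
      = ∑ i ∈ Finset.range p, Fintype.card {q : Q // g ^ i • q = q} := by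
  have hp0 : (p : ℂ) ≠ 0 := by exact_mod_cast hp.ne'
  have hgp : h2_rho Q g ^ p = 1 := by
    rw [h2_rho_pow]; exact h2_rho_eq_one_of_trivial _ hg
  set P : Module.End ℂ (Q → ℂ) := (p : ℂ)⁻¹ • h2_norm Q g p with hP
  have hproj : LinearMap.IsProj (h2_inv Q g) P := by
    constructor
    · intro x
      rw [h2_mem_inv, hP, LinearMap.smul_apply, map_smul]
      congr 1
      have h := congrArg (fun f : Module.End ℂ (Q → ℂ) => f x) (h2_sub_one_mul_norm (Q := Q) g p)
      simp only [Module.End.mul_apply, hgp, sub_self, LinearMap.zero_apply, LinearMap.sub_apply,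
        Module.End.one_apply] at h
      exact sub_eq_zero.1 h
    · intro x hx
      rw [h2_mem_inv] at hx
      rw [hP, LinearMap.smul_apply, h2_norm_apply_of_inv g p x hx, smul_smul,
        inv_mul_cancel₀ hp0, one_smul]
  have htr := hproj.trace
  rw [hP, map_smul, h2_norm, map_sum] at htr
  have h2 : ∀ i ∈ Finset.range p, LinearMap.trace ℂ (Q → ℂ) (h2_rho Q g ^ i)
      = (Fintype.card {q : Q // g ^ i • q = q} : ℂ) := by
    intro i _
    rw [h2_rho_pow, h2_trace_rho]
  rw [Finset.sum_congr rfl h2, smul_eq_mul] at htr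
  have h3 : ((p * Module.finrank ℂ ↥(h2_inv Q g) : ℕ) : ℂ)
      = ((∑ i ∈ Finset.range p, Fintype.card {q : Q // g ^ i • q = q} : ℕ) : ℂ) := by
    push_cast
    rw [← htr]
    field_simp
  exact_mod_cast h3

/-- **(ES-2b') numerics of the invariants.** -/
theorem h2_invCount : InvCountStatement := by
  intro G _ Q _ _
  classical
  have := Fintype.ofFinite Q
  refine ⟨?_, ?_, ?_⟩
  · intro s hs
    have h := h2_mul_finrank_inv (Q := Q) s 2 (by norm_num) hs
    rw [Finset.sum_range_succ, Finset.sum_range_one] at h
    rw [h, Nat.card_eq_fintype_card, Nat.card_eq_fintype_card]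
    congr 1
    · refine Fintype.card_congr (Equiv.subtypeUnivEquiv fun q => ?_)
      simp
    · refine Fintype.card_congr (Equiv.subtypeEquivRight fun q => ?_)
      simp
  · intro u hu
    have h := h2_mul_finrank_inv (Q := Q) u 3 (by norm_num) hu
    rw [Finset.sum_range_succ, Finset.sum_range_succ, Finset.sum_range_one] at h
    rw [h, Nat.card_eq_fintype_card, Nat.card_eq_fintype_card]
    have h0 : Fintype.card {q : Q // u ^ 0 • q = q} = Fintype.card Q := by
      refine Fintype.card_congr (Equiv.subtypeUnivEquiv fun q => ?_)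
      simp
    have h1 : Fintype.card {q : Q // u ^ 1 • q = q} = Fintype.card {q : Q // u • q = q} := by
      refine Fintype.card_congr (Equiv.subtypeEquivRight fun q => ?_)
      simp
    have h2 : Fintype.card {q : Q // u ^ 2 • q = q} = Fintype.card {q : Q // u • q = q} := by
      refine Fintype.card_congr (Equiv.subtypeEquivRight fun q => ?_)
      constructor
      · intro h
        have h3 := hu q
        rw [pow_succ', mul_smul, h] at h3
        exact h3
      · intro h
        rw [pow_two, mul_smul, h, h]
    rw [h0, h1, h2]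
    ring
  · intro t
    set Ω := MulAction.orbitRel.Quotient (Subgroup.zpowers t) Q with hΩ
    have : Fintype Ω := Fintype.ofFinite Ω
    set π : Q → Ω := Quotient.mk'' with hπ
    have hπs : Function.Surjective π := Quotient.mk''_surjective
    set L : (Ω → ℂ) →ₗ[ℂ] (Q → ℂ) := LinearMap.funLeft ℂ ℂ π with hL
    have hinj : Function.Injective L := LinearMap.funLeft_injective_of_surjective ℂ ℂ π hπs
    have hle : LinearMap.range L ≤ h2_inv Q t := by
      rintro _ ⟨f, rfl⟩
      rw [h2_mem_inv]
      funext q
      rw [h2_rho_apply, hL, LinearMap.funLeft_apply, LinearMap.funLeft_apply]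
      congr 1
      refine Quotient.sound' ?_
      rw [MulAction.orbitRel_apply]
      exact ⟨⟨t⁻¹, Subgroup.inv_mem _ (Subgroup.mem_zpowers t)⟩, rfl⟩
    have h1 : Module.finrank ℂ ↥(LinearMap.range L) = Module.finrank ℂ (Ω → ℂ) :=
      LinearMap.finrank_range_of_inj hinj
    rw [Module.finrank_pi, ← Nat.card_eq_fintype_card] at h1
    rw [← h1]
    exact Submodule.finrank_mono hle

end Count

end Fermat.Agent.Lib.S21
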