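import Fermat.Agent.Lib.S21.Defs
import Fermat.Agent.Lib.S21.InvCount
import Fermat.Agent.Lib.X0.Comb
import Fermat.Agent.Lib.X0.Assembly

/-!
# (ES-2) `dim Hom_par(Γ₀(N), ℂ) ≤ 2 g`: assembly (owner: helper2)
-/

set_option autoImplicit false

noncomputable section

namespace Fermat.Agent.Lib.S21

open ModularCurve ModularCurve.Period CongruenceSubgroup Fermat.Agent.Lib.X0
open scoped MatrixGroups

theorem h2_closure_S_U : Subgroup.closure {matS, matU} = (⊤ : Subgroup SL(2, ℤ)) := by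
  rw [eq_top_iff, ← SpecialLinearGroup.SL2Z_generators, Subgroup.closure_le]
  rintro x (rfl | hx)
  · exact Subgroup.subset_closure (Set.mem_insert _ _)
  · rw [Set.mem_singleton_iff] at hx
    subst hx
    have h1 : matS ∈ Subgroup.closure {matS, matU} :=
      Subgroup.subset_closure (Set.mem_insert _ _)
    have h2 : matU ∈ Subgroup.closure {matS, matU} :=
      Subgroup.subset_closure (Set.mem_insert_of_mem _ rfl)
    have : ModularGroup.T = matS⁻¹ * matU := by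
      simp [matS, matU]
    rw [SetLike.mem_coe, this]
    exact Subgroup.mul_mem _ (Subgroup.inv_mem _ h1) h2

theorem h2_S_inv_mul_U : matS⁻¹ * matU = matT := by
  simp [matS, matU, matT]

/-- Conjugates of `T^n` have trace `2`. -/
theorem h2_trace_conj_T_pow (r : SL(2, ℤ)) (n : ℕ) :
    ((r⁻¹ * matT ^ n * r : SL(2, ℤ)) : Matrix (Fin 2) (Fin 2) ℤ).trace = 2 := by
  rw [Matrix.SpecialLinearGroup.coe_mul, Matrix.SpecialLinearGroup.coe_mul,
    Matrix.trace_mul_cycle, Matrix.SpecialLinearGroup.coe_inv, Matrix.mul_adjugate,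
    Matrix.SpecialLinearGroup.det_coe, one_smul, Matrix.one_mul]
  have : matT ^ n = ModularGroup.T ^ (n : ℤ) := by rw [zpow_natCast]
  rw [this, ModularGroup.coe_T_zpow, Matrix.trace_fin_two_of]
  norm_num

/-- **(ES-2) from the cocycle contract.** -/
theorem h2_parabolicDim_of (hA : CocycleStatement) (N : ℕ) [NeZero N] :
    ParabolicDimStatement N := by
  classical
  obtain ⟨hcard, hS, hU, hT, hTN, _⟩ := h8_combStatement N
  have hz : (-1 : SL(2, ℤ)) ∈ Gamma0 N := neg_one_mem_Gamma0 N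
  have hzc : ∀ g : SL(2, ℤ), (-1) * g = g * (-1) := by intro g; simp
  have hz2 : (-1 : SL(2, ℤ)) ^ 2 = 1 := by simp
  have htm : ∀ q : SL(2, ℤ) ⧸ Gamma0 N, (matS⁻¹ * matU) ^ N • q = q := by
    rw [h2_S_inv_mul_U]; exact hTN
  have hP : ∀ φ ∈ parabolicHoms ℂ (Gamma0 N) ℂ, ∀ (r : SL(2, ℤ))
      (h : r⁻¹ * (matS⁻¹ * matU) ^ N * r ∈ Gamma0 N), φ (Additive.ofMul ⟨_, h⟩) = 0 := by
    intro φ hφ r h
    refine hφ ⟨_, h⟩ ?_
    simp only [h2_S_inv_mul_U]
    rw [h2_trace_conj_T_pow]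
    norm_num
  obtain ⟨Θ, h1, h2, h3⟩ := hA (Gamma0 N) matS matU (-1) hz hzc matS_sq matU_cube hz2
    h2_closure_S_U N (NeZero.pos N) htm (parabolicHoms ℂ (Gamma0 N) ℂ) hP
  have hinj : Function.Injective Θ := by
    rw [← LinearMap.ker_eq_bot, LinearMap.ker_eq_bot']
    intro φ hφ
    exact h3 φ 0 (by simp) (by simpa using hφ)
  have hfinV : FiniteDimensional ℂ ((SL(2, ℤ) ⧸ Gamma0 N) → ℂ) := inferInstance
  have hfinP : FiniteDimensional ℂ (parabolicHoms ℂ (Gamma0 N) ℂ) :=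
    FiniteDimensional.of_injective Θ hinj
  refine ⟨hfinP, ?_⟩
  have hS2 : ∀ q : QN N, matS ^ 2 • q = q := by
    intro q; rw [matS_sq]; exact neg_one_smul_QN N q
  have hU3 : ∀ q : QN N, matU ^ 3 • q = q := by
    intro q; rw [matU_cube]; exact neg_one_smul_QN N q
  have hcount := h2_permCount (G := SL(2, ℤ)) (Q := QN N) matS matU h2_closure_S_U hS2 hU3 N
    (NeZero.pos N) htm (LinearMap.range Θ)
    (by rintro _ ⟨φ, rfl⟩; exact h1 φ)
    (by rintro _ ⟨φ, rfl⟩; exact h2 φ)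
    (by
      rintro _ ⟨φ, rfl⟩ b hb hw
      rw [h3 φ b hb hw, map_zero])
  rw [LinearMap.finrank_range_of_inj hinj, h2_S_inv_mul_U] at hcount
  obtain ⟨hi2, hi3, hit⟩ := h2_invCount (G := SL(2, ℤ)) (Q := QN N)
  have e2 := hi2 matS hS2
  have e3 := hi3 matU hU3
  have et : cuspCount N ≤ Module.finrank ℂ ↥(h2_inv (QN N) matT) :=
    le_of_eq_of_le hT.symm (hit matT)
  rw [hS, hcard] at e2
  rw [hU, hcard] at e3
  rw [hcard] at hcount
  have e2' : (2 : ℚ) * (Module.finrank ℂ ↥(h2_inv (QN N) matS) : ℚ)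
      = (dedekindPsi N : ℚ) + (nuTwo N : ℚ) := by exact_mod_cast e2
  have e3' : (3 : ℚ) * (Module.finrank ℂ ↥(h2_inv (QN N) matU) : ℚ)
      = (dedekindPsi N : ℚ) + 2 * (nuThree N : ℚ) := by exact_mod_cast e3
  have et' : (cuspCount N : ℚ) ≤ (Module.finrank ℂ ↥(h2_inv (QN N) matT) : ℚ) := by
    exact_mod_cast et
  have hc' : (Module.finrank ℂ ↥(parabolicHoms ℂ (Gamma0 N) ℂ) : ℚ)
      + (Module.finrank ℂ ↥(h2_inv (QN N) matS) : ℚ)
      + (Module.finrank ℂ ↥(h2_inv (QN N) matU) : ℚ)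
      + (Module.finrank ℂ ↥(h2_inv (QN N) matT) : ℚ) ≤ (dedekindPsi N : ℚ) + 2 := by
    exact_mod_cast hcount
  unfold genusFormula
  linarith

end Fermat.Agent.Lib.S21
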