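/-
S21 / (ES-1)(b) (helper7): the maximum principle on `Γ₀(N)\ℍ*`.

`h7_const_of_norm_invariant`: a holomorphic `E : ℍ → ℂ` whose norm is `Γ₀(N)`-invariant and all
of whose `SL(2,ℤ)`-translates are `N`-periodic and bounded at `i∞` is constant.
(Exact statement of helper1's msg 326, piece (b).)  Mathlib only.
-/
import Mathlib

set_option autoImplicit false

namespace Fermat.Agent.Lib.S21

open UpperHalfPlane Complex Filter Function Metric Set ModularGroup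
open scoped MatrixGroups Manifold Topology Real ModularForm Modular

local notation "𝕢" => Periodic.qParam

theorem h7_mdiff_translate (E : ℍ → ℂ) (hol : MDiff E) (δ : SL(2,ℤ)) :
    MDiff (fun w : ℍ => E (δ • w)) := by
  have h := hol.slash (0 : ℤ) (δ : GL (Fin 2) ℝ)
  have h2 : (E ∣[(0 : ℤ)] (δ : GL (Fin 2) ℝ)) = fun w : ℍ => E (δ • w) := by
    funext w
    rw [← ModularForm.SL_slash, ModularForm.SL_slash_apply]
    simp
  rwa [h2] at h

theorem h7_half_le_im_of_mem_fd {w : ℍ} (hw : w ∈ 𝒟) : 1 / 2 ≤ w.im := by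
  have h := three_le_four_mul_im_sq_of_mem_fd hw
  have hpos := w.im_pos
  nlinarith

/-- **Maximum principle on `Γ₀(N)\ℍ*`.**  A holomorphic function on `ℍ` whose norm is
`Γ₀(N)`-invariant, and all of whose `SL(2,ℤ)`-translates are `N`-periodic and bounded at `i∞`,
is constant. -/
theorem h7_const_of_norm_invariant (N : ℕ) [NeZero N] (E : ℍ → ℂ) (hol : MDiff E)
    (hinv : ∀ γ ∈ CongruenceSubgroup.Gamma0 N, ∀ z : ℍ, ‖E (γ • z)‖ = ‖E z‖)
    (hper : ∀ δ : SL(2,ℤ),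
      Function.Periodic ((fun w : ℍ => E (δ • w)) ∘ UpperHalfPlane.ofComplex) (N : ℝ))
    (hbdd : ∀ δ : SL(2,ℤ), IsBoundedAtImInfty (fun w : ℍ => E (δ • w))) :
    ∀ z w : ℍ, E z = E w := by
  classical
  have hN : (0 : ℝ) < (N : ℝ) := Nat.cast_pos.mpr (NeZero.pos N)
  let ε : SL(2,ℤ) → ℂ → ℂ := fun δ => cuspFunction (N : ℝ) (fun w : ℍ => E (δ • w))
  have hε_diff : ∀ δ, DifferentiableOn ℂ (ε δ) (ball 0 1) := fun δ =>
    differentiableOn_cuspFunction_ball hN (hper δ) (h7_mdiff_translate E hol δ) (hbdd δ)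
  have hε_eq : ∀ δ (w : ℍ), ε δ (𝕢 (N : ℝ) w) = E (δ • w) := fun δ w =>
    eq_cuspFunction (f := fun w : ℍ => E (δ • w)) w hN.ne' (hper δ)
  -- the compact disc
  set r : ℝ := Real.exp (-π / N) with hr
  have hr1 : r < 1 := by
    rw [hr, Real.exp_lt_one_iff]
    exact div_neg_of_neg_of_pos (neg_lt_zero.mpr Real.pi_pos) hN
  have hr0 : 0 < r := Real.exp_pos _
  have hKball : closedBall (0 : ℂ) r ⊆ ball 0 1 := closedBall_subset_ball hr1
  have hmax : ∀ δ, ∃ a ∈ closedBall (0 : ℂ) r, IsMaxOn (fun q => ‖ε δ q‖) (closedBall (0 : ℂ) r) a :=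
    fun δ => (isCompact_closedBall (0 : ℂ) r).exists_isMaxOn ⟨0, mem_closedBall_self hr0.le⟩
      ((hε_diff δ).continuousOn.mono hKball).norm
  choose a ha hamax using hmax
  -- finitely many cosets
  have : Finite (SL(2,ℤ) ⧸ CongruenceSubgroup.Gamma0 N) := Subgroup.finite_quotient_of_finiteIndex
  let rep : SL(2,ℤ) ⧸ CongruenceSubgroup.Gamma0 N → SL(2,ℤ) := Quotient.out
  let S : SL(2,ℤ) ⧸ CongruenceSubgroup.Gamma0 N → ℝ :=
    fun q => ‖ε (rep q)⁻¹ (a (rep q)⁻¹)‖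
  obtain ⟨q₀, hq₀⟩ := Finite.exists_max S
  -- points of the fundamental domain have small `q`
  have hfdK : ∀ w : ℍ, w ∈ 𝒟 → 𝕢 (N : ℝ) w ∈ closedBall (0 : ℂ) r := by
    intro w hw
    rw [mem_closedBall_zero_iff, Periodic.norm_qParam, hr, Real.exp_le_exp]
    have h2 := h7_half_le_im_of_mem_fd hw
    rw [div_le_div_iff_of_pos_right hN]
    have : (w : ℂ).im = w.im := rfl
    rw [this]
    nlinarith [Real.pi_pos]
  -- global bound
  have hglob : ∀ z : ℍ, ‖E z‖ ≤ S q₀ := by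
    intro z
    obtain ⟨g, hg⟩ := exists_smul_mem_fd z
    set w : ℍ := g • z with hw
    let q : SL(2,ℤ) ⧸ CongruenceSubgroup.Gamma0 N := QuotientGroup.mk g
    obtain ⟨γ, hγ⟩ := QuotientGroup.mk_out_eq_mul (CongruenceSubgroup.Gamma0 N) g
    have hrep : rep q = g * γ := hγ
    have hz : z = g⁻¹ • w := by rw [hw, inv_smul_smul]
    have h1 : (rep q)⁻¹ • w = (γ⁻¹ : SL(2,ℤ)) • z := by
      rw [hrep, mul_inv_rev, mul_smul, ← hz]
    have h2 : ‖E ((rep q)⁻¹ • w)‖ = ‖E z‖ := by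
      rw [h1]
      exact hinv _ (inv_mem γ.2) z
    calc ‖E z‖ = ‖E ((rep q)⁻¹ • w)‖ := h2.symm
      _ = ‖ε (rep q)⁻¹ (𝕢 (N : ℝ) w)‖ := by rw [hε_eq]
      _ ≤ S q := hamax (rep q)⁻¹ (hfdK w hg)
      _ ≤ S q₀ := hq₀ q
  -- the maximum is attained in the open disc
  set δ₀ : SL(2,ℤ) := (rep q₀)⁻¹ with hδ₀
  have ha₀ : a δ₀ ∈ ball (0 : ℂ) 1 := hKball (ha δ₀)
  have hmaxball : IsMaxOn (norm ∘ ε δ₀) (ball (0 : ℂ) 1) (a δ₀) := by
    intro q hq
    show ‖ε δ₀ q‖ ≤ ‖ε δ₀ (a δ₀)‖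
    by_cases hq0 : q = 0
    · rw [hq0]
      exact hamax δ₀ (mem_closedBall_self hr0.le)
    · have hq1 : ‖q‖ < 1 := mem_ball_zero_iff.mp hq
      have him := Periodic.im_invQParam_pos_of_norm_lt_one hN hq1 hq0
      let w : ℍ := ⟨Periodic.invQParam (N : ℝ) q, him⟩
      have hqw : 𝕢 (N : ℝ) w = q := Periodic.qParam_right_inv hN.ne' hq0
      rw [← hqw, hε_eq]
      exact hglob _
  have hconst := Complex.eqOn_of_isPreconnected_of_isMaxOn_norm
    (convex_ball (0 : ℂ) 1).isPreconnected isOpen_ball (hε_diff δ₀) ha₀ hmaxball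
  have hEconst : ∀ w : ℍ, E (δ₀ • w) = ε δ₀ (a δ₀) := by
    intro w
    rw [← hε_eq]
    apply hconst
    rw [mem_ball_zero_iff]
    exact Periodic.norm_qParam_lt_one hN w.im_pos
  intro z w
  have hz : z = δ₀ • (δ₀⁻¹ • z) := by rw [smul_inv_smul]
  have hw' : w = δ₀ • (δ₀⁻¹ • w) := by rw [smul_inv_smul]
  rw [hz, hw', hEconst, hEconst]

end Fermat.Agent.Lib.S21
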