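/-
S21 / (ES-1) (helper7): maximum principle, real-part form (lead's msg 330).

`h7_es_maxPrinciple`: a holomorphic `Φ : ℍ → ℂ` whose REAL PART is `Γ₀(N)`-invariant and which has
a limit at every cusp (`Φ (g • z) → c_g` as `im z → ∞`, for every `g : SL(2,ℤ)`) is constant.
Corollary of `h7_const_of_norm_invariant` applied to `exp ∘ Φ`.
-/
import Mathlib
import Fermat.Agent.Lib.S21.MaxPrinciple

set_option autoImplicit false

namespace Fermat.Agent.Lib.S21

open UpperHalfPlane Complex Filter Function Metric Set ModularGroup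
open scoped MatrixGroups Manifold Topology Real ModularForm Modular

/-- A holomorphic function on `ℍ` with constant real part is constant. -/
theorem h7_const_of_re_const (h : ℍ → ℂ) (hh : MDiff h) (hre : ∀ z w : ℍ, (h z).re = (h w).re) :
    ∀ z w : ℍ, h z = h w := by
  have hd : DifferentiableOn ℂ (h ∘ ofComplex) {z : ℂ | 0 < z.im} := mdifferentiable_iff.mp hh
  have han : AnalyticOnNhd ℂ (h ∘ ofComplex) {z : ℂ | 0 < z.im} :=
    hd.analyticOnNhd isOpen_upperHalfPlaneSet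
  have hconn : IsConnected {z : ℂ | 0 < z.im} :=
    Complex.isConnected_of_upperHalfPlane subset_rfl (fun z (hz : 0 < z.im) => le_of_lt hz)
  obtain ⟨c, hc⟩ := han.eq_const_of_re_eq_const (c₀ := (h UpperHalfPlane.I).re)
    (fun z hz => hre _ _) isOpen_upperHalfPlaneSet hconn
  intro z w
  have h1 := hc (z : ℂ) z.im_pos
  have h2 := hc (w : ℂ) w.im_pos
  simp only [Function.comp_apply, ofComplex_apply] at h1 h2
  rw [h1, h2]

theorem h7_conj_T_pow_mem (N : ℕ) (g : SL(2,ℤ)) :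
    g * T ^ (N : ℤ) * g⁻¹ ∈ CongruenceSubgroup.Gamma0 N := by
  have h1 : T ^ (N : ℤ) ∈ CongruenceSubgroup.Gamma N := by
    have := CongruenceSubgroup.ModularGroup_T_pow_mem_Gamma (N : ℤ) (N : ℤ) dvd_rfl
    simpa using this
  have h2 := (CongruenceSubgroup.Gamma_normal N).conj_mem _ h1 g
  rw [CongruenceSubgroup.Gamma_mem] at h2
  rw [CongruenceSubgroup.Gamma0_mem]
  exact h2.2.2.1

theorem h7_tendsto_T_zpow_smul (n : ℤ) :
    Tendsto (fun w : ℍ => T ^ n • w) atImInfty atImInfty := by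
  rw [atImInfty, tendsto_comap_iff]
  have : (UpperHalfPlane.im ∘ fun w : ℍ => T ^ n • w) = UpperHalfPlane.im := by
    funext w
    exact im_T_zpow_smul w n
  rw [this]
  exact tendsto_comap

theorem h7_ofComplex_add_nat (N : ℕ) (w : ℂ) (hw : 0 < w.im) :
    ofComplex (w + ((N : ℝ) : ℂ)) = T ^ (N : ℤ) • ofComplex w := by
  have hw' : 0 < (w + ((N : ℝ) : ℂ)).im := by simpa using hw
  apply UpperHalfPlane.ext
  rw [coe_T_zpow_smul_eq, ofComplex_apply_of_im_pos hw', ofComplex_apply_of_im_pos hw]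
  simp

/-- **Maximum principle, real-part form** (lead's msg 330). -/
theorem h7_es_maxPrinciple (N : ℕ) [NeZero N] (Φ : ℍ → ℂ) (hΦ : MDifferentiable 𝓘(ℂ) 𝓘(ℂ) Φ)
    (hinv : ∀ δ ∈ CongruenceSubgroup.Gamma0 N, ∀ z : ℍ, (Φ (δ • z)).re = (Φ z).re)
    (hcusp : ∀ g : SL(2,ℤ), ∃ c : ℂ, Tendsto (fun z : ℍ => Φ (g • z)) atImInfty (𝓝 c)) :
    ∃ c : ℂ, ∀ z, Φ z = c := by
  -- Step 1: `Φ ∘ γ - Φ` is constant for `γ ∈ Γ₀(N)`
  have hstep1 : ∀ γ ∈ CongruenceSubgroup.Gamma0 N, ∀ z w : ℍ,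
      Φ (γ • z) - Φ z = Φ (γ • w) - Φ w := by
    intro γ hγ
    apply h7_const_of_re_const (fun z => Φ (γ • z) - Φ z)
      ((h7_mdiff_translate Φ hΦ γ).sub hΦ)
    intro z w
    simp only [Complex.sub_re]
    rw [hinv γ hγ z, hinv γ hγ w, sub_self, sub_self]
  -- Step 2: the translates are `N`-periodic
  have hstep2 : ∀ (g : SL(2,ℤ)) (w : ℍ), Φ (g • (T ^ (N : ℤ) • w)) = Φ (g • w) := by
    intro g w
    have hγ : g * T ^ (N : ℤ) * g⁻¹ ∈ CongruenceSubgroup.Gamma0 N := h7_conj_T_pow_mem N g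
    obtain ⟨c, hc⟩ := hcusp g
    have e : ∀ u : ℍ, (g * T ^ (N : ℤ) * g⁻¹) • (g • u) = g • (T ^ (N : ℤ) • u) := by
      intro u
      rw [← mul_smul, ← mul_smul]
      congr 1
      group
    have hd : ∀ w' : ℍ, Φ (g • (T ^ (N : ℤ) • w')) - Φ (g • w')
        = Φ (g • (T ^ (N : ℤ) • w)) - Φ (g • w) := by
      intro w'
      have := hstep1 _ hγ (g • w') (g • w)
      rwa [e, e] at this
    have hlim1 : Tendsto (fun w' : ℍ => Φ (g • (T ^ (N : ℤ) • w'))) atImInfty (𝓝 c) :=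
      hc.comp (h7_tendsto_T_zpow_smul (N : ℤ))
    have hlim : Tendsto (fun w' : ℍ => Φ (g • (T ^ (N : ℤ) • w')) - Φ (g • w')) atImInfty
        (𝓝 (c - c)) := hlim1.sub hc
    have h2 : Tendsto (fun w' : ℍ => Φ (g • (T ^ (N : ℤ) • w')) - Φ (g • w')) atImInfty
        (𝓝 (Φ (g • (T ^ (N : ℤ) • w)) - Φ (g • w))) := by
      simp_rw [hd]
      exact tendsto_const_nhds
    have h3 := tendsto_nhds_unique h2 hlim
    rw [sub_self] at h3
    exact sub_eq_zero.mp h3
  -- Step 3: apply the norm version to `exp ∘ Φ`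
  have hE : ∀ z w : ℍ, cexp (Φ z) = cexp (Φ w) := by
    apply h7_const_of_norm_invariant N (fun z => cexp (Φ z))
    · rw [UpperHalfPlane.mdifferentiable_iff]
      exact (UpperHalfPlane.mdifferentiable_iff.mp hΦ).cexp
    · intro γ hγ z
      show ‖cexp (Φ (γ • z))‖ = ‖cexp (Φ z)‖
      rw [Complex.norm_exp, Complex.norm_exp, hinv γ hγ z]
    · intro δ w
      show cexp (Φ (δ • ofComplex (w + ((N : ℝ) : ℂ)))) = cexp (Φ (δ • ofComplex w))
      by_cases hw : 0 < w.im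
      · rw [h7_ofComplex_add_nat N w hw, hstep2]
      · have hw1 : w.im ≤ 0 := not_lt.mp hw
        have hw2 : (w + ((N : ℝ) : ℂ)).im ≤ 0 := by simpa using hw1
        rw [ofComplex_apply_of_im_nonpos hw1, ofComplex_apply_of_im_nonpos hw2]
    · intro δ
      obtain ⟨c, hc⟩ := hcusp δ
      have : Tendsto (fun w : ℍ => cexp (Φ (δ • w))) atImInfty (𝓝 (cexp c)) :=
        (Complex.continuous_exp.tendsto c).comp hc
      exact this.isBigO_one ℝ
  refine ⟨Φ UpperHalfPlane.I, fun z => ?_⟩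
  apply h7_const_of_re_const Φ hΦ
  intro z w
  have := congrArg norm (hE z w)
  rw [Complex.norm_exp, Complex.norm_exp] at this
  exact Real.exp_injective this

end Fermat.Agent.Lib.S21
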