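import Mathlib
import Fermat.Agent.Lib.S21.PeriodPrim

/-!
# Project S21 (ES-1d): injectivity of the pair map `periodHomPair`

Owner: helper1.

For `F = Ginf f` put `Fbar z = conj (F (-conj z))` (holomorphic).  Since
`-conj (γ z) = (jConjSL γ) (-conj z)`, the function `Fbar` transforms with the conjugated periods
of `jConjSL γ`.  If the periods of `f` are symmetric or antisymmetric under the involution then
`F ∓ s Fbar` and `-i (F ± s Fbar)` have `Γ₀(N)`-invariant real parts, hence are constant by the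
maximum principle on `X₀(N)` (hypothesis `MaxPrincipleStatement N`), hence `F` is constant and
`f = 0`.
-/

set_option autoImplicit false

noncomputable section

namespace Fermat.Agent.Lib.S21

open ModularCurve ModularCurve.Period CongruenceSubgroup UpperHalfPlane Filter Topology
open Fermat.Agent.Lib.Helper3.MS Fermat.Agent.Lib.Helper8
open scoped MatrixGroups Manifold ModularForm ComplexConjugate

/-- The reflection `z ↦ -conj z` intertwines `γ` and `jConjSL γ`. -/
theorem h1_J_smul_smul (γ : SL(2, ℤ)) (z : ℍ) : J • (γ • z) = jConjSL γ • (J • z) := by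
  apply UpperHalfPlane.ext
  rw [coe_J_smul, coe_specialLinearGroup_apply, coe_specialLinearGroup_apply, coe_J_smul]
  simp only [jConjSL_coe, jConjMat_apply_zero_zero, jConjMat_apply_zero_one,
    jConjMat_apply_one_zero, jConjMat_apply_one_one, map_div₀, map_add, map_mul,
    Complex.conj_ofReal, map_neg, Complex.ofReal_neg]
  rw [← neg_div]
  congr 1 <;> ring

theorem h1_im_J_smul (z : ℍ) : (J • z).im = z.im := by
  have h := coe_J_smul z
  have h2 : ((J • z : ℍ) : ℂ).im = (-(starRingEnd ℂ) (z : ℂ)).im := by rw [h]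
  simpa using h2

theorem h1_tendsto_J : Tendsto (fun z : ℍ => J • z) atImInfty atImInfty := by
  rw [atImInfty, tendsto_comap_iff]
  have e : (im ∘ fun w : ℍ => J • w) = im := by
    funext w
    simp only [Function.comp_apply]
    exact h1_im_J_smul w
  rw [e]
  exact tendsto_comap

/-- The holomorphic reflection of a function on `ℍ`: `z ↦ conj (G (-conj z))`. -/
def h1_bar (G : ℍ → ℂ) : ℍ → ℂ := fun z => conj (G (J • z))

theorem h1_bar_mdiff {G : ℍ → ℂ} (hG : MDiff G) : MDiff (h1_bar G) := by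
  rw [UpperHalfPlane.mdifferentiable_iff] at hG ⊢
  intro z hz
  have hz' : 0 < (-conj z).im := by simpa using hz
  have hd : DifferentiableAt ℂ (G ∘ ofComplex) (-conj z) :=
    (hG _ hz').differentiableAt ((isOpen_lt continuous_const Complex.continuous_im).mem_nhds hz')
  -- the model function
  have hd2 : DifferentiableAt ℂ (fun w : ℂ => (G ∘ ofComplex) (-w)) (conj z) := by
    have : DifferentiableAt ℂ (fun w : ℂ => -w) (conj z) := differentiableAt_id.neg
    exact DifferentiableAt.comp (conj z) (f := fun w : ℂ => -w) (g := G ∘ ofComplex) hd this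
  have hd3 := hd2.conj_conj
  rw [Complex.conj_conj] at hd3
  refine (hd3.congr_of_eventuallyEq ?_).differentiableWithinAt
  have hopen : {w : ℂ | 0 < w.im} ∈ 𝓝 z :=
    (isOpen_lt continuous_const Complex.continuous_im).mem_nhds hz
  filter_upwards [hopen] with w hw
  simp only [Function.comp_apply, h1_bar]
  congr 2
  rw [J_smul, ofComplex_apply_of_im_pos hw]

variable {N : ℕ} [NeZero N]

theorem h1_Ginf_mdiff (f : CuspForm (Gamma0 N) 2) : MDiff (Ginf (⇑f)) := by
  intro τ
  rw [UpperHalfPlane.mdifferentiableAt_iff]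
  exact ((h1_isDiff f).Ginf_isPrim τ).differentiableAt

theorem h1_bar_smul (f : CuspForm (Gamma0 N) 2) (γ : SL(2, ℤ)) (hγ : γ ∈ Gamma0 N) (z : ℍ) :
    h1_bar (Ginf (⇑f)) (γ • z) = h1_bar (Ginf (⇑f)) z + conj (period (⇑f) (jConjSL γ)) := by
  unfold h1_bar
  rw [h1_J_smul_smul, h1_Ginf_smul f _ (jConjSL_mem_Gamma0 hγ), map_add]

theorem h1_tendsto_bar_smul (f : CuspForm (Gamma0 N) 2) (δ : SL(2, ℤ)) :
    Tendsto (fun w : ℍ => h1_bar (Ginf (⇑f)) (δ • w)) atImInfty
      (𝓝 (conj (period (⇑f) (jConjSL δ)))) := by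
  have h1 := (h1_tendsto_Ginf_smul f (jConjSL δ)).comp h1_tendsto_J
  have h2 := (Complex.continuous_conj.tendsto (period (⇑f) (jConjSL δ))).comp h1
  refine h2.congr fun w => ?_
  simp only [Function.comp_apply, h1_bar]
  rw [h1_J_smul_smul]

/-- The maximum principle on `X₀(N)`, as a hypothesis (lead's `es_maxPrinciple`). -/
def MaxPrincipleStatement (N : ℕ) : Prop :=
  ∀ Φ : ℍ → ℂ, MDiff Φ →
    (∀ δ ∈ Gamma0 N, ∀ z : ℍ, (Φ (δ • z)).re = (Φ z).re) →
    (∀ g : SL(2, ℤ), ∃ c : ℂ, Tendsto (fun z : ℍ => Φ (g • z)) atImInfty (𝓝 c)) →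
    ∃ c : ℂ, ∀ z, Φ z = c

/-- A cusp form whose periods are (anti-)symmetric under the involution vanishes. -/
theorem h1_eq_zero_of_period_symm (hmax : MaxPrincipleStatement N) (f : CuspForm (Gamma0 N) 2)
    (s : ℝ) (hs : s * s = 1)
    (h : ∀ γ ∈ Gamma0 N, period (⇑f) (jConjSL γ) = (s : ℂ) * period (⇑f) γ) : f = 0 := by
  set F := Ginf (⇑f) with hF
  set Fb := h1_bar (Ginf (⇑f)) with hFb
  have hFd : MDiff F := h1_Ginf_mdiff f
  have hFbd : MDiff Fb := h1_bar_mdiff hFd
  have hsc : (s : ℂ) * (s : ℂ) = 1 := by exact_mod_cast hs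
  have hconj_s : conj (s : ℂ) = (s : ℂ) := Complex.conj_ofReal s
  -- first function
  obtain ⟨c₁, hc₁⟩ := hmax (fun z => F z - (s : ℂ) * Fb z)
    (by
      rw [UpperHalfPlane.mdifferentiable_iff] at hFd hFbd ⊢
      exact hFd.sub (hFbd.const_mul _))
    (by
      intro γ hγ z
      simp only [hF, hFb]
      rw [h1_Ginf_smul f γ hγ, h1_bar_smul f γ hγ, h γ hγ, map_mul, hconj_s]
      have e : Ginf (⇑f) z + period (⇑f) γ -
          (s : ℂ) * (h1_bar (Ginf ⇑f) z + (s : ℂ) * conj (period (⇑f) γ))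
          = (Ginf (⇑f) z - (s : ℂ) * h1_bar (Ginf ⇑f) z)
            + (period (⇑f) γ - conj (period (⇑f) γ)) := by
        linear_combination (-(conj (period (⇑f) γ))) * hsc
      rw [e, Complex.add_re]
      have e2 : (period (⇑f) γ - conj (period (⇑f) γ)).re = 0 := by simp
      rw [e2, add_zero])
    (by
      intro g
      exact ⟨_, (h1_tendsto_Ginf_smul f g).sub ((h1_tendsto_bar_smul f g).const_mul _)⟩)
  obtain ⟨c₂, hc₂⟩ := hmax (fun z => -Complex.I * (F z + (s : ℂ) * Fb z))
    (by
      rw [UpperHalfPlane.mdifferentiable_iff] at hFd hFbd ⊢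
      exact (hFd.add (hFbd.const_mul _)).const_mul _)
    (by
      intro γ hγ z
      simp only [hF, hFb]
      rw [h1_Ginf_smul f γ hγ, h1_bar_smul f γ hγ, h γ hγ, map_mul, hconj_s]
      have e : -Complex.I * (Ginf (⇑f) z + period (⇑f) γ +
          (s : ℂ) * (h1_bar (Ginf ⇑f) z + (s : ℂ) * conj (period (⇑f) γ)))
          = -Complex.I * (Ginf (⇑f) z + (s : ℂ) * h1_bar (Ginf ⇑f) z)
            + -Complex.I * (period (⇑f) γ + conj (period (⇑f) γ)) := by
        linear_combination (-Complex.I * (conj (period (⇑f) γ))) * hsc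
      rw [e, Complex.add_re]
      have e2 : (-Complex.I * (period (⇑f) γ + conj (period (⇑f) γ))).re = 0 := by
        simp
      rw [e2, add_zero])
    (by
      intro g
      exact ⟨_, ((h1_tendsto_Ginf_smul f g).add
        ((h1_tendsto_bar_smul f g).const_mul _)).const_mul _⟩)
  -- `F` is constant
  have hconst : ∀ z, F z = (c₁ + Complex.I * c₂) / 2 := by
    intro z
    have h1 : F z - (s : ℂ) * Fb z = c₁ := hc₁ z
    have h2 : -Complex.I * (F z + (s : ℂ) * Fb z) = c₂ := hc₂ z
    have hI : Complex.I * Complex.I = -1 := Complex.I_mul_I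
    rw [eq_div_iff (two_ne_zero)]
    linear_combination h1 + Complex.I * h2 + (F z + (s : ℂ) * Fb z) * hI
  -- hence `f = 0`
  ext τ
  have hp : HasDerivAt (F ∘ ofComplex) (f τ) (τ : ℂ) := (h1_isDiff f).Ginf_isPrim τ
  have e : (F ∘ ofComplex) = fun _ => (c₁ + Complex.I * c₂) / 2 := by
    funext w
    exact hconst _
  rw [e] at hp
  exact hp.unique (hasDerivAt_const _ _)

/-- **Injectivity of the pair map**, given the maximum principle. -/
theorem h1_periodHomPair_injective (hmax : MaxPrincipleStatement N) :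
    Function.Injective (periodHomPair N) := by
  obtain ⟨pml, hpml, hdef⟩ := periodHomPair_def N (h1_existsPeriodMapLinear N)
  rw [injective_iff_map_eq_zero]
  rintro ⟨f₁, f₂⟩ h0
  rw [hdef] at h0
  simp only [LinearMap.coprod_apply, LinearMap.comp_apply, LinearMap.add_apply,
    LinearMap.sub_apply, LinearMap.id_apply, hpml] at h0
  -- evaluate at `γ` and at `jConj γ`
  have key : ∀ γ : SL(2, ℤ), γ ∈ Gamma0 N →
      period (⇑f₁) γ + period (⇑f₁) (jConjSL γ)
        + (period (⇑f₂) γ - period (⇑f₂) (jConjSL γ)) = 0 := by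
    intro γ hγ
    have h1 := DFunLike.congr_fun h0 (Additive.ofMul (⟨γ, hγ⟩ : Gamma0 N))
    simp only [AddMonoidHom.add_apply, AddMonoidHom.sub_apply, charInvolution_apply,
      toMul_ofMul, h1_periodMap_apply, jConjGamma0_coe, AddMonoidHom.zero_apply] at h1
    exact h1
  have key1 : ∀ γ : SL(2, ℤ), γ ∈ Gamma0 N →
      period (⇑f₁) (jConjSL γ) = ((-1 : ℝ) : ℂ) * period (⇑f₁) γ := by
    intro γ hγ
    have h1 := key γ hγ
    have h2 := key (jConjSL γ) (jConjSL_mem_Gamma0 hγ)
    rw [jConjSL_jConjSL] at h2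
    push_cast
    linear_combination (1 / 2 : ℂ) * h1 + (1 / 2 : ℂ) * h2
  have key2 : ∀ γ : SL(2, ℤ), γ ∈ Gamma0 N →
      period (⇑f₂) (jConjSL γ) = ((1 : ℝ) : ℂ) * period (⇑f₂) γ := by
    intro γ hγ
    have h1 := key γ hγ
    have h2 := key (jConjSL γ) (jConjSL_mem_Gamma0 hγ)
    rw [jConjSL_jConjSL] at h2
    push_cast
    linear_combination (-1 / 2 : ℂ) * h1 + (1 / 2 : ℂ) * h2
  have e1 : f₁ = 0 := h1_eq_zero_of_period_symm hmax f₁ (-1) (by norm_num) key1
  have e2 : f₂ = 0 := h1_eq_zero_of_period_symm hmax f₂ 1 (by norm_num) key2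
  rw [e1, e2]
  rfl

/-- **(ES-1)** from the maximum principle and the conjugacy classification of parabolics. -/
theorem h1_periodStatement_of (hmax : MaxPrincipleStatement N) (hconj : ParabolicConjStatement) :
    PeriodStatement N :=
  ⟨h1_existsPeriodMapLinear N, h1_periodMap_parabolic hconj, h1_periodHomPair_injective hmax⟩

end Fermat.Agent.Lib.S21
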