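import Mathlib
import Fermat.Agent.Lib.S21.PeriodInj
import Fermat.Agent.Lib.S21.MaxPrincipleRe

/-!
# Project S21 (ES-1): the analytic contract `PeriodStatement N`

Owner: helper1.  Assembly of `PeriodPrim` (Eichler primitive, periods), `PeriodInj` (injectivity
of the pair map modulo the maximum principle) and helper7's maximum principle
`h7_es_maxPrinciple`; the conjugacy classification of parabolic elements is still a hypothesis
here (`ParabolicConjStatement`, helper7's `Lib/S21/ParabolicConj.lean`).
-/

set_option autoImplicit false

namespace Fermat.Agent.Lib.S21

open ModularCurve ModularCurve.Period CongruenceSubgroup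

/-- The maximum principle on `X₀(N)` (helper7). -/
theorem h1_maxPrinciple (N : ℕ) [NeZero N] : MaxPrincipleStatement N :=
  fun Φ h1 h2 h3 => h7_es_maxPrinciple N Φ h1 h2 h3

/-- Injectivity of the pair map (unconditional). -/
theorem h1_periodHomPair_inj (N : ℕ) [NeZero N] : Function.Injective (periodHomPair N) :=
  h1_periodHomPair_injective (h1_maxPrinciple N)

/-- **(ES-1)** modulo the conjugacy classification of parabolic elements. -/
theorem h1_periodStatement_of_conj (N : ℕ) [NeZero N] (hconj : ParabolicConjStatement) :
    PeriodStatement N :=
  h1_periodStatement_of (h1_maxPrinciple N) hconj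

end Fermat.Agent.Lib.S21
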