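import Mathlib
import Fermat.Agent.Lib.S21.Period
import Fermat.Agent.Lib.S21.ParabolicConj

/-!
# Project S21 (ES-1): `PeriodStatement N`, unconditional

Owner: helper1.  `h1_periodStatement_of_conj` + helper7's `h7_parabolicConj`.
-/

set_option autoImplicit false

namespace Fermat.Agent.Lib.S21

/-- **Contract (ES-1).** -/
theorem h1_periodStatement (N : ℕ) [NeZero N] : PeriodStatement N :=
  h1_periodStatement_of_conj N h7_parabolicConj

end Fermat.Agent.Lib.S21
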