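import Fermat.Agent.Lib.S21.ES2Defs

/-!
# (ES-2a) (helper6): the Shapiro cocycle, generic form: proof of `CocycleStatement`

`Γ ≤ G`, `V = (G ⧸ Γ → ℂ)` with the permutation representation `h2_rho`; for an additive
character `φ` of `Γ` the cocycle `c_φ(g)(q) = φ(r_q⁻¹ g r_{g⁻¹ q})`, `r_q` a representative of
the coset `q`.
-/

set_option autoImplicit false

noncomputable section

namespace Fermat.Agent.Lib.S21

section Cocycle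

variable {G : Type} [Group G] (Γ : Subgroup G)

theorem h6_rho_mul_apply (g h : G) (v : G ⧸ Γ → ℂ) :
    h2_rho (G ⧸ Γ) (g * h) v = h2_rho (G ⧸ Γ) g (h2_rho (G ⧸ Γ) h v) := by
  rw [map_mul]; rfl

theorem h6_rho_one_apply (v : G ⧸ Γ → ℂ) : h2_rho (G ⧸ Γ) (1 : G) v = v := by
  rw [map_one]; rfl

theorem h6_rho_inv_cancel (g : G) (v : G ⧸ Γ → ℂ) :
    h2_rho (G ⧸ Γ) g⁻¹ (h2_rho (G ⧸ Γ) g v) = v := by
  rw [← h6_rho_mul_apply, inv_mul_cancel, h6_rho_one_apply]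

/-- The representative of a coset. -/
def h6_rep (q : G ⧸ Γ) : G := Quotient.out q

theorem h6_rep_mk (q : G ⧸ Γ) : ((h6_rep Γ q : G) : G ⧸ Γ) = q := QuotientGroup.out_eq' q

theorem h6_smul_mk (g h : G) : g • ((h : G) : G ⧸ Γ) = ((g * h : G) : G ⧸ Γ) := rfl

theorem h6_cocElem_mem (g : G) (q : G ⧸ Γ) :
    (h6_rep Γ q)⁻¹ * (g * h6_rep Γ (g⁻¹ • q)) ∈ Γ := by
  rw [← QuotientGroup.eq, h6_rep_mk, ← h6_smul_mk, h6_rep_mk, smul_inv_smul]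

/-- The element `r_q⁻¹ g r_{g⁻¹ q}` of `Γ`. -/
def h6_cocElem (g : G) (q : G ⧸ Γ) : Γ :=
  ⟨(h6_rep Γ q)⁻¹ * (g * h6_rep Γ (g⁻¹ • q)), h6_cocElem_mem Γ g q⟩

theorem h6_cocElem_mul (g h : G) (q : G ⧸ Γ) :
    h6_cocElem Γ (g * h) q = h6_cocElem Γ g q * h6_cocElem Γ h (g⁻¹ • q) := by
  apply Subtype.ext
  show (h6_rep Γ q)⁻¹ * (g * h * h6_rep Γ ((g * h)⁻¹ • q))
    = (h6_rep Γ q)⁻¹ * (g * h6_rep Γ (g⁻¹ • q)) *
      ((h6_rep Γ (g⁻¹ • q))⁻¹ * (h * h6_rep Γ (h⁻¹ • g⁻¹ • q)))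
  rw [mul_inv_rev, mul_smul]
  group

/-- The Shapiro cocycle of a character `φ`. -/
def h6_coc (φ : Additive Γ →+ ℂ) (g : G) : G ⧸ Γ → ℂ :=
  fun q => φ (Additive.ofMul (h6_cocElem Γ g q))

theorem h6_coc_apply (φ : Additive Γ →+ ℂ) (g : G) (q : G ⧸ Γ) :
    h6_coc Γ φ g q = φ (Additive.ofMul (h6_cocElem Γ g q)) := rfl

/-- The cocycle identity. -/
theorem h6_coc_mul (φ : Additive Γ →+ ℂ) (g h : G) :
    h6_coc Γ φ (g * h) = h6_coc Γ φ g + h2_rho (G ⧸ Γ) g (h6_coc Γ φ h) := by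
  funext q
  rw [Pi.add_apply, h2_rho_apply, h6_coc_apply, h6_coc_apply, h6_coc_apply, h6_cocElem_mul,
    ofMul_mul, map_add]

theorem h6_coc_one (φ : Additive Γ →+ ℂ) : h6_coc Γ φ 1 = 0 := by
  have h := h6_coc_mul Γ φ 1 1
  rw [one_mul, h6_rho_one_apply] at h
  exact left_eq_add.mp h

theorem h6_coc_inv (φ : Additive Γ →+ ℂ) (g : G) :
    h6_coc Γ φ g⁻¹ = -h2_rho (G ⧸ Γ) g⁻¹ (h6_coc Γ φ g) := by
  have h := h6_coc_mul Γ φ g⁻¹ g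
  rw [inv_mul_cancel, h6_coc_one] at h
  exact eq_neg_of_add_eq_zero_left h.symm

/-- additivity in `φ`. -/
theorem h6_coc_add (φ ψ : Additive Γ →+ ℂ) (g : G) :
    h6_coc Γ (φ + ψ) g = h6_coc Γ φ g + h6_coc Γ ψ g := rfl

theorem h6_coc_smul (a : ℂ) (φ : Additive Γ →+ ℂ) (g : G) :
    h6_coc Γ (a • φ) g = a • h6_coc Γ φ g := rfl

/-- `c(g^m) = ∑_{i<m} ρ(g)^i c(g)`. -/
theorem h6_coc_pow (φ : Additive Γ →+ ℂ) (g : G) (m : ℕ) :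
    h6_coc Γ φ (g ^ m) = h2_norm (G ⧸ Γ) g m (h6_coc Γ φ g) := by
  unfold h2_norm
  rw [LinearMap.sum_apply]
  induction m with
  | zero => simp [h6_coc_one]
  | succ m ih =>
    rw [pow_succ', h6_coc_mul, ih, Finset.sum_range_succ', map_sum]
    simp only [pow_zero, Module.End.one_apply]
    rw [add_comm]
    congr 1
    refine Finset.sum_congr rfl fun i _ => ?_
    rw [pow_succ', Module.End.mul_apply]

/-- A cocycle which is a coboundary on generators `s`, `u` is a coboundary. -/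
theorem h6_coc_eq_coboundary (s u : G) (hgen : Subgroup.closure {s, u} = ⊤)
    (φ : Additive Γ →+ ℂ) (e : G ⧸ Γ → ℂ)
    (hS : h6_coc Γ φ s = e - h2_rho (G ⧸ Γ) s e) (hU : h6_coc Γ φ u = e - h2_rho (G ⧸ Γ) u e)
    (g : G) : h6_coc Γ φ g = e - h2_rho (G ⧸ Γ) g e := by
  let H : Subgroup G :=
    { carrier := {g | h6_coc Γ φ g = e - h2_rho (G ⧸ Γ) g e}
      one_mem' := by
        show h6_coc Γ φ 1 = e - h2_rho (G ⧸ Γ) (1 : G) e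
        rw [h6_coc_one, h6_rho_one_apply, sub_self]
      mul_mem' := by
        intro a b ha hb
        show h6_coc Γ φ (a * b) = e - h2_rho (G ⧸ Γ) (a * b) e
        have ha' : h6_coc Γ φ a = e - h2_rho (G ⧸ Γ) a e := ha
        have hb' : h6_coc Γ φ b = e - h2_rho (G ⧸ Γ) b e := hb
        rw [h6_coc_mul, ha', hb', map_sub, h6_rho_mul_apply]
        abel
      inv_mem' := by
        intro a ha
        show h6_coc Γ φ a⁻¹ = e - h2_rho (G ⧸ Γ) a⁻¹ e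
        have ha' : h6_coc Γ φ a = e - h2_rho (G ⧸ Γ) a e := ha
        rw [h6_coc_inv, ha', map_sub, h6_rho_inv_cancel]
        abel }
  have hle : Subgroup.closure ({s, u} : Set G) ≤ H := by
    rw [Subgroup.closure_le]
    rintro x (rfl | rfl)
    · exact hS
    · exact hU
  rw [hgen] at hle
  exact hle (Subgroup.mem_top g)

/-- the base point `Γ` of `G ⧸ Γ`. -/
def h6_q0 : G ⧸ Γ := ((1 : G) : G ⧸ Γ)

theorem h6_smul_q0 (γ : G) (hγ : γ ∈ Γ) : γ • h6_q0 Γ = h6_q0 Γ := by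
  show ((γ * 1 : G) : G ⧸ Γ) = ((1 : G) : G ⧸ Γ)
  rw [QuotientGroup.eq]
  simpa using Γ.inv_mem hγ

theorem h6_rep_q0_mem : h6_rep Γ (h6_q0 Γ) ∈ Γ := by
  have h : ((h6_rep Γ (h6_q0 Γ) : G) : G ⧸ Γ) = ((1 : G) : G ⧸ Γ) := h6_rep_mk Γ _
  rw [QuotientGroup.eq] at h
  have h2 := Γ.inv_mem h
  simpa using h2

/-- `c_φ(γ)` at the base point is `φ(γ)`. -/
theorem h6_coc_q0 (φ : Additive Γ →+ ℂ) (γ : Γ) :
    h6_coc Γ φ (γ : G) (h6_q0 Γ) = φ (Additive.ofMul γ) := by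
  rw [h6_coc_apply]
  have hfix : ((γ : G))⁻¹ • h6_q0 Γ = h6_q0 Γ :=
    h6_smul_q0 Γ _ (Γ.inv_mem γ.2)
  let r₀ : Γ := ⟨h6_rep Γ (h6_q0 Γ), h6_rep_q0_mem Γ⟩
  have he : h6_cocElem Γ (γ : G) (h6_q0 Γ) = r₀⁻¹ * (γ * r₀) := by
    apply Subtype.ext
    show (h6_rep Γ (h6_q0 Γ))⁻¹ * ((γ : G) * h6_rep Γ (((γ : G))⁻¹ • h6_q0 Γ)) = _
    rw [hfix]
    rfl
  rw [he, ofMul_mul, ofMul_mul, ofMul_inv, map_add, map_add, map_neg]
  ring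

end Cocycle

section Cocycle2

variable {G : Type} [Group G] (Γ : Subgroup G)

/-- A central element of `Γ` acts trivially on `G ⧸ Γ`. -/
theorem h6_central_smul (z : G) (hz : z ∈ Γ) (hzc : ∀ g : G, z * g = g * z) (q : G ⧸ Γ) :
    z • q = q := by
  induction q using QuotientGroup.induction_on with
  | H g =>
    show ((z * g : G) : G ⧸ Γ) = ((g : G) : G ⧸ Γ)
    rw [QuotientGroup.eq, hzc g, mul_inv_rev, inv_mul_cancel_right]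
    exact Γ.inv_mem hz

/-- An element acting trivially on `G ⧸ Γ` acts trivially on functions. -/
theorem h6_rho_of_smul (g : G) (hg : ∀ q : G ⧸ Γ, g • q = q) (v : G ⧸ Γ → ℂ) :
    h2_rho (G ⧸ Γ) g v = v := by
  funext q
  rw [h2_rho_apply]
  congr 1
  rw [inv_smul_eq_iff, hg]

/-- `c(z) = 0` for `z` acting trivially with `z² = 1`. -/
theorem h6_coc_central (z : G) (hg : ∀ q : G ⧸ Γ, z • q = q) (hz2 : z ^ 2 = 1)
    (φ : Additive Γ →+ ℂ) : h6_coc Γ φ z = 0 := by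
  have h := h6_coc_mul Γ φ z z
  rw [← pow_two, hz2, h6_coc_one, h6_rho_of_smul Γ z hg] at h
  have h2 : (2 : ℂ) • h6_coc Γ φ z = 0 := by rw [two_smul]; exact h.symm
  exact (smul_eq_zero.mp h2).resolve_left two_ne_zero

variable (s u z : G)

/-- `(1 + s) c(s) = 0`. -/
theorem h6_coc_S (hs : s ^ 2 = z) (hg : ∀ q : G ⧸ Γ, z • q = q) (hz2 : z ^ 2 = 1)
    (φ : Additive Γ →+ ℂ) :
    h6_coc Γ φ s + h2_rho (G ⧸ Γ) s (h6_coc Γ φ s) = 0 := by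
  have h := h6_coc_mul Γ φ s s
  rw [← pow_two, hs, h6_coc_central Γ z hg hz2] at h
  exact h.symm

theorem h6_rho_cube_of (hu : u ^ 3 = z) (hg : ∀ q : G ⧸ Γ, z • q = q) (v : G ⧸ Γ → ℂ) :
    h2_rho (G ⧸ Γ) u (h2_rho (G ⧸ Γ) u (h2_rho (G ⧸ Γ) u v)) = v := by
  have h3 : u * u * u = z := by
    rw [← hu, pow_succ, pow_two]
  rw [← h6_rho_mul_apply, ← h6_rho_mul_apply, h3, h6_rho_of_smul Γ z hg]

theorem h6_coc_cube_of (hu : u ^ 3 = z) (hg : ∀ q : G ⧸ Γ, z • q = q) (hz2 : z ^ 2 = 1)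
    (φ : Additive Γ →+ ℂ) :
    h6_coc Γ φ u + h2_rho (G ⧸ Γ) u (h6_coc Γ φ u)
      + h2_rho (G ⧸ Γ) u (h2_rho (G ⧸ Γ) u (h6_coc Γ φ u)) = 0 := by
  have h1 := h6_coc_mul Γ φ u u
  have h2 := h6_coc_mul Γ φ u (u * u)
  have h3 : u * (u * u) = z := by
    rw [← hu, pow_succ, pow_two, mul_assoc]
  rw [h3, h6_coc_central Γ z hg hz2, h1, map_add] at h2
  rw [h2]
  abel

/-- `a = c(s)/2`. -/
def h6_a (φ : Additive Γ →+ ℂ) : G ⧸ Γ → ℂ := (2⁻¹ : ℂ) • h6_coc Γ φ s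

/-- `w = c(u) - (1 - u) a`, the value at `u` of the normalised cocycle. -/
def h6_w (φ : Additive Γ →+ ℂ) : G ⧸ Γ → ℂ :=
  h6_coc Γ φ u - (h6_a Γ s φ - h2_rho (G ⧸ Γ) u (h6_a Γ s φ))

theorem h6_two_a (φ : Additive Γ →+ ℂ) : h6_a Γ s φ + h6_a Γ s φ = h6_coc Γ φ s := by
  unfold h6_a
  rw [← add_smul]
  norm_num

/-- `ρ(s) a = -a`. -/
theorem h6_rho_S_a (hs : s ^ 2 = z) (hg : ∀ q : G ⧸ Γ, z • q = q) (hz2 : z ^ 2 = 1)
    (φ : Additive Γ →+ ℂ) : h2_rho (G ⧸ Γ) s (h6_a Γ s φ) = -h6_a Γ s φ := by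
  unfold h6_a
  rw [map_smul, ← smul_neg]
  congr 1
  exact eq_neg_of_add_eq_zero_right (h6_coc_S Γ s z hs hg hz2 φ)

/-- (F2) `w ∈ ker (1 + u + u²)`. -/
theorem h6_w_mem_KU (hu : u ^ 3 = z) (hg : ∀ q : G ⧸ Γ, z • q = q) (hz2 : z ^ 2 = 1)
    (φ : Additive Γ →+ ℂ) :
    h6_w Γ s u φ ∈ LinearMap.ker (h2_norm (G ⧸ Γ) u 3) := by
  rw [LinearMap.mem_ker]
  unfold h2_norm
  rw [LinearMap.sum_apply]
  simp only [Finset.sum_range_succ, Finset.sum_range_zero, pow_zero, pow_one, pow_two,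
    Module.End.one_apply, Module.End.mul_apply, zero_add]
  unfold h6_w
  simp only [map_sub]
  rw [h6_rho_cube_of Γ u z hu hg]
  have h := h6_coc_cube_of Γ u z hu hg hz2 φ
  linear_combination (exp := 1) h

end Cocycle2

section Cocycle3

variable {G : Type} [Group G] (Γ : Subgroup G) (s u z : G)

theorem h6_rho_pow_of_smul (t : G) (m : ℕ) (ht : ∀ q : G ⧸ Γ, t ^ m • q = q) :
    h2_rho (G ⧸ Γ) t ^ m = 1 := by
  rw [← map_pow]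
  apply LinearMap.ext
  intro v
  rw [h6_rho_of_smul Γ (t ^ m) ht, Module.End.one_apply]

/-- The norm kills `(1 - ρ(t)) a`. -/
theorem h6_norm_one_sub (t : G) (m : ℕ) (ht : ∀ q : G ⧸ Γ, t ^ m • q = q) (a : G ⧸ Γ → ℂ) :
    h2_norm (G ⧸ Γ) t m (a - h2_rho (G ⧸ Γ) t a) = 0 := by
  have h := geom_sum_mul_neg (h2_rho (G ⧸ Γ) t) m
  rw [h6_rho_pow_of_smul Γ t m ht, sub_self] at h
  have h2 := congrArg (fun f : Module.End ℂ (G ⧸ Γ → ℂ) => f a) h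
  unfold h2_norm
  simpa [Module.End.mul_apply] using h2

/-- If `φ` kills the conjugates of `t^m` in `Γ` then `c(t^m) = 0`. -/
theorem h6_coc_pow_eq_zero (t : G) (m : ℕ) (ht : ∀ q : G ⧸ Γ, t ^ m • q = q)
    (φ : Additive Γ →+ ℂ)
    (hφ : ∀ (r : G) (h : r⁻¹ * t ^ m * r ∈ Γ), φ (Additive.ofMul ⟨_, h⟩) = 0) :
    h6_coc Γ φ (t ^ m) = 0 := by
  funext q
  rw [h6_coc_apply, Pi.zero_apply]
  have h1 : (t ^ m)⁻¹ • q = q := by rw [inv_smul_eq_iff, ht]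
  have hmem : (h6_rep Γ q)⁻¹ * t ^ m * h6_rep Γ q ∈ Γ := by
    have := h6_cocElem_mem Γ (t ^ m) q
    rw [h1, ← mul_assoc] at this
    exact this
  have he : h6_cocElem Γ (t ^ m) q = ⟨_, hmem⟩ := by
    apply Subtype.ext
    show (h6_rep Γ q)⁻¹ * (t ^ m * h6_rep Γ ((t ^ m)⁻¹ • q)) = (h6_rep Γ q)⁻¹ * t ^ m * h6_rep Γ q
    rw [h1, mul_assoc]
  rw [he]
  exact hφ (h6_rep Γ q) hmem

/-- (F3) `ρ(s⁻¹) w ∈ ker norm_t`, `t = s⁻¹ u`. -/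
theorem h6_w_mem_SKT (hs : s ^ 2 = z) (hg : ∀ q : G ⧸ Γ, z • q = q) (hz2 : z ^ 2 = 1)
    (m : ℕ) (ht : ∀ q : G ⧸ Γ, (s⁻¹ * u) ^ m • q = q) (φ : Additive Γ →+ ℂ)
    (hφ : ∀ (r : G) (h : r⁻¹ * (s⁻¹ * u) ^ m * r ∈ Γ), φ (Additive.ofMul ⟨_, h⟩) = 0) :
    h2_rho (G ⧸ Γ) s⁻¹ (h6_w Γ s u φ) ∈ LinearMap.ker (h2_norm (G ⧸ Γ) (s⁻¹ * u) m) := by
  have hkey : h2_rho (G ⧸ Γ) s⁻¹ (h6_w Γ s u φ)
      = h6_coc Γ φ (s⁻¹ * u) - (h6_a Γ s φ - h2_rho (G ⧸ Γ) (s⁻¹ * u) (h6_a Γ s φ)) := by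
    have hSa := h6_rho_S_a Γ s z hs hg hz2 φ
    have hSa' : h2_rho (G ⧸ Γ) s⁻¹ (h6_a Γ s φ) = -h6_a Γ s φ := by
      have := congrArg (h2_rho (G ⧸ Γ) s⁻¹) hSa
      rw [h6_rho_inv_cancel, map_neg] at this
      exact (neg_eq_iff_eq_neg.mp this.symm)
    have hcs : h2_rho (G ⧸ Γ) s⁻¹ (h6_coc Γ φ s) = -(h6_a Γ s φ + h6_a Γ s φ) := by
      rw [← h6_two_a, map_add, hSa']
      abel
    unfold h6_w
    rw [map_sub, map_sub, ← h6_rho_mul_apply, hSa', h6_coc_mul, h6_coc_inv, hcs]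
    abel
  rw [LinearMap.mem_ker, hkey, map_sub, ← h6_coc_pow, h6_coc_pow_eq_zero Γ _ m ht φ hφ,
    h6_norm_one_sub Γ _ m ht, sub_self]

/-- (F4) the class of `w` modulo `(1 - u) V^s` determines `φ`. -/
theorem h6_phi_eq_zero (hgen : Subgroup.closure {s, u} = ⊤)
    (hs : s ^ 2 = z) (hg : ∀ q : G ⧸ Γ, z • q = q) (hz2 : z ^ 2 = 1)
    (φ : Additive Γ →+ ℂ) (b : G ⧸ Γ → ℂ)
    (hb : h2_rho (G ⧸ Γ) s b = b) (hw : h6_w Γ s u φ = b - h2_rho (G ⧸ Γ) u b) : φ = 0 := by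
  set e : G ⧸ Γ → ℂ := h6_a Γ s φ + b with he
  have hS : h6_coc Γ φ s = e - h2_rho (G ⧸ Γ) s e := by
    rw [he, map_add, h6_rho_S_a Γ s z hs hg hz2, hb, ← h6_two_a]
    abel
  have hU : h6_coc Γ φ u = e - h2_rho (G ⧸ Γ) u e := by
    have h1 : h6_coc Γ φ u = h6_w Γ s u φ + (h6_a Γ s φ - h2_rho (G ⧸ Γ) u (h6_a Γ s φ)) := by
      unfold h6_w; abel
    rw [h1, hw, he, map_add]
    abel
  have hall := h6_coc_eq_coboundary Γ s u hgen φ e hS hU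
  apply AddMonoidHom.ext
  intro γ
  have h1 := h6_coc_q0 Γ φ (Additive.toMul γ)
  rw [hall, Pi.sub_apply, h2_rho_apply,
    h6_smul_q0 Γ _ (Γ.inv_mem (Additive.toMul γ).2), sub_self] at h1
  rw [AddMonoidHom.zero_apply]
  exact h1.symm

/-- `φ ↦ c_φ(g)` as a linear map. -/
def h6_cocLin (g : G) : (Additive Γ →+ ℂ) →ₗ[ℂ] (G ⧸ Γ → ℂ) where
  toFun φ := h6_coc Γ φ g
  map_add' φ ψ := h6_coc_add Γ φ ψ g
  map_smul' a φ := h6_coc_smul Γ a φ g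

/-- `φ ↦ w_φ` as a linear map. -/
def h6_wLin : (Additive Γ →+ ℂ) →ₗ[ℂ] (G ⧸ Γ → ℂ) :=
  h6_cocLin Γ u - (LinearMap.id - h2_rho (G ⧸ Γ) u) ∘ₗ ((2⁻¹ : ℂ) • h6_cocLin Γ s)

theorem h6_wLin_apply (φ : Additive Γ →+ ℂ) : h6_wLin Γ s u φ = h6_w Γ s u φ := rfl

end Cocycle3

/-- **(ES-2a)** the cocycle contract. -/
theorem h6_cocycle : CocycleStatement := by
  intro G _ Γ s u z hz hzc hs hu hz2 hgen m _ ht P hP
  have hg : ∀ q : G ⧸ Γ, z • q = q := h6_central_smul Γ z hz hzc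
  refine ⟨(h6_wLin Γ s u).comp P.subtype, ?_, ?_, ?_⟩
  · intro φ
    exact h6_w_mem_KU Γ s u z hu hg hz2 φ.1
  · intro φ
    exact h6_w_mem_SKT Γ s u z hs hg hz2 m ht φ.1 (hP φ.1 φ.2)
  · intro φ b hb hw
    apply Subtype.ext
    exact h6_phi_eq_zero Γ s u z hgen hs hg hz2 φ.1 b hb hw

end Fermat.Agent.Lib.S21
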