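import Mathlib

/-!
# (ES-2) `dim Hom_par(Γ₀(N), ℂ) ≤ 2g`: generic definitions and the two internal contracts

Owner: helper2.

Setting: a group `G` acting on a finite set `Q`; `V := Q → ℂ` with the permutation representation
`(ρ g v) q = v (g⁻¹ • q)`.
-/

set_option autoImplicit false

noncomputable section

namespace Fermat.Agent.Lib.S21

section Generic

variable {G : Type*} [Group G] (Q : Type*) [MulAction G Q]

/-- The permutation representation of `G` on functions `Q → ℂ`: `(ρ g v) q = v (g⁻¹ • q)`. -/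
def h2_rho : G →* Module.End ℂ (Q → ℂ) where
  toFun g := LinearMap.funLeft ℂ ℂ (fun q => g⁻¹ • q)
  map_one' := by
    ext v q
    simp [LinearMap.funLeft_apply]
  map_mul' g h := by
    apply LinearMap.ext
    intro v
    funext q
    simp [LinearMap.funLeft_apply, mul_smul]

theorem h2_rho_apply (g : G) (v : Q → ℂ) (q : Q) : h2_rho Q g v q = v (g⁻¹ • q) := rfl

/-- The norm operator `1 + g + ⋯ + g^(m-1)` on `Q → ℂ`. -/
def h2_norm (g : G) (m : ℕ) : Module.End ℂ (Q → ℂ) := ∑ i ∈ Finset.range m, h2_rho Q g ^ i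

/-- The invariants of `g` in `Q → ℂ`. -/
def h2_inv (g : G) : Submodule ℂ (Q → ℂ) := LinearMap.ker (1 - h2_rho Q g)

end Generic

/-- (ES-2a) **Cocycle construction** (Shapiro): for `Γ ≤ G`, `G = ⟨s, u⟩`, `s² = u³ = z` central
of order `≤ 2` in `Γ`, `t := s⁻¹ u` with `t^m` acting trivially on `G ⧸ Γ`: a space `P` of
homomorphisms `Γ → ℂ` killing all conjugates of `t^m` in `Γ` embeds linearly into
`V = (G ⧸ Γ → ℂ)`, with image in `ker (1 + u + u²) ∩ s • ker (1 + t + ⋯ + t^(m-1))` and meeting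
`(1 - u) V^s` trivially. -/
def CocycleStatement : Prop :=
  ∀ {G : Type} [Group G] (Γ : Subgroup G) (s u z : G), z ∈ Γ → (∀ g : G, z * g = g * z) →
    s ^ 2 = z → u ^ 3 = z → z ^ 2 = 1 → Subgroup.closure {s, u} = ⊤ →
    ∀ m : ℕ, 0 < m → (∀ q : G ⧸ Γ, (s⁻¹ * u) ^ m • q = q) →
    ∀ P : Submodule ℂ (Additive Γ →+ ℂ),
      (∀ φ ∈ P, ∀ (r : G) (h : r⁻¹ * (s⁻¹ * u) ^ m * r ∈ Γ), φ (Additive.ofMul ⟨_, h⟩) = 0) →
      ∃ Θ : P →ₗ[ℂ] (G ⧸ Γ → ℂ),
        (∀ φ, Θ φ ∈ LinearMap.ker (h2_norm (G ⧸ Γ) u 3)) ∧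
        (∀ φ, h2_rho (G ⧸ Γ) s⁻¹ (Θ φ) ∈ LinearMap.ker (h2_norm (G ⧸ Γ) (s⁻¹ * u) m)) ∧
        (∀ φ b, h2_rho (G ⧸ Γ) s b = b → Θ φ = b - h2_rho (G ⧸ Γ) u b → φ = 0)

/-- (ES-2b) **Permutation-module dimension count.** -/
def PermCountStatement : Prop :=
  ∀ {G : Type} [Group G] {Q : Type} [Finite Q] [Nonempty Q] [MulAction G Q]
    [MulAction.IsPretransitive G Q] (s u : G), Subgroup.closure {s, u} = ⊤ →
    (∀ q : Q, s ^ 2 • q = q) → (∀ q : Q, u ^ 3 • q = q) →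
    ∀ m : ℕ, 0 < m → (∀ q : Q, (s⁻¹ * u) ^ m • q = q) →
    ∀ H : Submodule ℂ (Q → ℂ),
      (∀ w ∈ H, w ∈ LinearMap.ker (h2_norm Q u 3)) →
      (∀ w ∈ H, h2_rho Q s⁻¹ w ∈ LinearMap.ker (h2_norm Q (s⁻¹ * u) m)) →
      (∀ w ∈ H, ∀ b, h2_rho Q s b = b → w = b - h2_rho Q u b → w = 0) →
      (Module.finrank ℂ H : ℤ) + Module.finrank ℂ (h2_inv Q s) + Module.finrank ℂ (h2_inv Q u)
        + Module.finrank ℂ (h2_inv Q (s⁻¹ * u)) ≤ Nat.card Q + 2

/-- (ES-2b') the numerics of the invariants. -/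
def InvCountStatement : Prop :=
  ∀ {G : Type} [Group G] {Q : Type} [Finite Q] [MulAction G Q],
    (∀ s : G, (∀ q : Q, s ^ 2 • q = q) →
      2 * Module.finrank ℂ (h2_inv Q s) = Nat.card Q + Nat.card {q : Q // s • q = q}) ∧
    (∀ u : G, (∀ q : Q, u ^ 3 • q = q) →
      3 * Module.finrank ℂ (h2_inv Q u) = Nat.card Q + 2 * Nat.card {q : Q // u • q = q}) ∧
    (∀ t : G, Nat.card (MulAction.orbitRel.Quotient (Subgroup.zpowers t) Q)
      ≤ Module.finrank ℂ (h2_inv Q t))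

end Fermat.Agent.Lib.S21
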