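import Fermat.Agent.Lib.S21.ES2Defs

/-!
# (ES-2b) Permutation-module dimension count (owner: helper2)
-/

set_option autoImplicit false

noncomputable section

namespace Fermat.Agent.Lib.S21

section Generic

variable {G : Type*} [Group G] {Q : Type*} [MulAction G Q]

theorem h2_rho_single [DecidableEq Q] (g : G) (q : Q) (c : ℂ) :
    h2_rho Q g (Pi.single q c) = Pi.single (g • q) c := by
  funext x
  rw [h2_rho_apply]
  by_cases h : x = g • q
  · subst h
    simp
  · rw [Pi.single_eq_of_ne h, Pi.single_eq_of_ne]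
    intro h'
    exact h (by rw [← h']; simp)

theorem h2_rho_mul_apply (g h : G) (v : Q → ℂ) : h2_rho Q (g * h) v = h2_rho Q g (h2_rho Q h v) := by
  rw [map_mul]; rfl

theorem h2_rho_inv_apply_self (g : G) (v : Q → ℂ) : h2_rho Q g⁻¹ (h2_rho Q g v) = v := by
  rw [← h2_rho_mul_apply, inv_mul_cancel, map_one]; rfl

theorem h2_rho_apply_inv_self (g : G) (v : Q → ℂ) : h2_rho Q g (h2_rho Q g⁻¹ v) = v := by
  rw [← h2_rho_mul_apply, mul_inv_cancel, map_one]; rfl

theorem h2_rho_pow (g : G) (n : ℕ) : h2_rho Q g ^ n = h2_rho Q (g ^ n) := (map_pow _ g n).symm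

/-- An element acting trivially on `Q` acts trivially on `Q → ℂ`. -/
theorem h2_rho_eq_one_of_trivial (g : G) (hg : ∀ q : Q, g • q = q) : h2_rho Q g = 1 := by
  apply LinearMap.ext
  intro v
  funext q
  rw [h2_rho_apply, Module.End.one_apply]
  congr 1
  rw [inv_smul_eq_iff, hg]

theorem h2_mem_inv (g : G) (v : Q → ℂ) : v ∈ h2_inv Q g ↔ h2_rho Q g v = v := by
  rw [h2_inv, LinearMap.mem_ker, LinearMap.sub_apply, Module.End.one_apply, sub_eq_zero, eq_comm]

theorem h2_norm_apply_of_inv (g : G) (m : ℕ) (v : Q → ℂ) (hv : h2_rho Q g v = v) :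
    h2_norm Q g m v = (m : ℂ) • v := by
  have hpow : ∀ i : ℕ, (h2_rho Q g ^ i) v = v := by
    intro i
    induction i with
    | zero => simp
    | succ i ih => rw [pow_succ, Module.End.mul_apply, hv, ih]
  rw [h2_norm, LinearMap.sum_apply, Finset.sum_congr rfl (fun i _ => hpow i), Finset.sum_const,
    Finset.card_range, Nat.cast_smul_eq_nsmul]

/-- `(ρ g - 1) ∘ (1 + g + ⋯ + g^(m-1)) = ρ(g)^m - 1`. -/
theorem h2_sub_one_mul_norm (g : G) (m : ℕ) :
    (h2_rho Q g - 1) * h2_norm Q g m = h2_rho Q g ^ m - 1 := mul_geom_sum _ _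

theorem h2_norm_mul_sub_one (g : G) (m : ℕ) :
    h2_norm Q g m * (h2_rho Q g - 1) = h2_rho Q g ^ m - 1 := geom_sum_mul _ _

/-- `ker (norm) ∩ invariants = 0`. -/
theorem h2_ker_norm_inf_inv (g : G) (m : ℕ) (hm : 0 < m) :
    LinearMap.ker (h2_norm Q g m) ⊓ h2_inv Q g = ⊥ := by
  rw [eq_bot_iff]
  rintro v ⟨h1, h2⟩
  rw [SetLike.mem_coe, LinearMap.mem_ker] at h1
  rw [SetLike.mem_coe, h2_mem_inv] at h2
  rw [h2_norm_apply_of_inv g m v h2] at h1
  have hm' : (m : ℂ) ≠ 0 := by exact_mod_cast hm.ne'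
  rw [Submodule.mem_bot]
  exact (smul_eq_zero.1 h1).resolve_left hm'

end Generic

section Count

variable {G : Type} [Group G] {Q : Type} [Finite Q] [MulAction G Q]

/-- The linear automorphism `ρ g`. -/
def h2_rhoEquiv (g : G) : (Q → ℂ) ≃ₗ[ℂ] (Q → ℂ) :=
  LinearEquiv.ofLinearMap (h2_rho Q g) (h2_rho Q g⁻¹)
    (LinearMap.ext fun v => h2_rho_apply_inv_self g v)
    (LinearMap.ext fun v => h2_rho_inv_apply_self g v)

omit [Finite Q] in
theorem h2_rhoEquiv_apply (g : G) (v : Q → ℂ) : h2_rhoEquiv g v = h2_rho Q g v := rfl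

omit [Finite Q] in
/-- Differences of delta functions along the group generated by `s, u` lie in
`range (1 - u) + range (s - u)`. -/
theorem h2_delta_sub_mem [DecidableEq Q] (s u : G) (g : G) (hg : g ∈ Subgroup.closure {s, u})
    (q : Q) :
    (Pi.single q (1 : ℂ) - Pi.single (g • q) 1 : Q → ℂ) ∈
      LinearMap.range (1 - h2_rho Q u) ⊔ LinearMap.range (h2_rho Q s - h2_rho Q u) := by
  induction hg using Subgroup.closure_induction generalizing q with
  | mem x hx =>
    have hu : (Pi.single q (1 : ℂ) - Pi.single (u • q) 1 : Q → ℂ) ∈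
        LinearMap.range (1 - h2_rho Q u) :=
      ⟨Pi.single q 1, by
        rw [LinearMap.sub_apply, Module.End.one_apply, h2_rho_single]⟩
    rcases hx with rfl | hx
    · have hs : (Pi.single (x • q) (1 : ℂ) - Pi.single (u • q) 1 : Q → ℂ) ∈
          LinearMap.range (h2_rho Q x - h2_rho Q u) :=
        ⟨Pi.single q 1, by
          rw [LinearMap.sub_apply, h2_rho_single, h2_rho_single]⟩
      have : (Pi.single q (1 : ℂ) - Pi.single (x • q) 1 : Q → ℂ)
          = (Pi.single q (1 : ℂ) - Pi.single (u • q) 1)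
            - (Pi.single (x • q) (1 : ℂ) - Pi.single (u • q) 1) := by abel
      rw [this]
      exact Submodule.sub_mem _ (Submodule.mem_sup_left hu) (Submodule.mem_sup_right hs)
    · rw [Set.mem_singleton_iff] at hx
      subst hx
      exact Submodule.mem_sup_left hu
  | one => simp
  | mul x y _ _ hx hy =>
    have : (Pi.single q (1 : ℂ) - Pi.single ((x * y) • q) 1 : Q → ℂ)
        = (Pi.single q (1 : ℂ) - Pi.single (y • q) 1)
          + (Pi.single (y • q) (1 : ℂ) - Pi.single (x • (y • q)) 1) := by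
      rw [mul_smul]; abel
    rw [this]
    exact Submodule.add_mem _ (hy q) (hx (y • q))
  | inv x _ hx =>
    have := hx (x⁻¹ • q)
    rw [smul_inv_smul] at this
    have h2 : (Pi.single q (1 : ℂ) - Pi.single (x⁻¹ • q) 1 : Q → ℂ)
        = - (Pi.single (x⁻¹ • q) (1 : ℂ) - Pi.single q 1) := by abel
    rw [h2]
    exact Submodule.neg_mem _ this

/-- `range (1 - u) + range (s - u)` has codimension at most one. -/
theorem h2_finrank_sup_range [Nonempty Q] [MulAction.IsPretransitive G Q] (s u : G)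
    (hgen : Subgroup.closure {s, u} = ⊤) :
    Nat.card Q ≤ Module.finrank ℂ
      ↥(LinearMap.range (1 - h2_rho Q u) ⊔ LinearMap.range (h2_rho Q s - h2_rho Q u)) + 1 := by
  classical
  have := Fintype.ofFinite Q
  obtain ⟨q₀⟩ := ‹Nonempty Q›
  set M := LinearMap.range (1 - h2_rho Q u) ⊔ LinearMap.range (h2_rho Q s - h2_rho Q u) with hM
  have hdelta : ∀ q : Q, (Pi.single q (1 : ℂ) - Pi.single q₀ 1 : Q → ℂ) ∈ M := by
    intro q
    obtain ⟨g, rfl⟩ := MulAction.exists_smul_eq G q₀ q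
    have := h2_delta_sub_mem s u g (by rw [hgen]; trivial) q₀
    have h2 : (Pi.single (g • q₀) (1 : ℂ) - Pi.single q₀ 1 : Q → ℂ)
        = - (Pi.single q₀ (1 : ℂ) - Pi.single (g • q₀) 1) := by abel
    rw [h2]
    exact Submodule.neg_mem _ this
  have htop : (⊤ : Submodule ℂ (Q → ℂ)) ≤ M ⊔ Submodule.span ℂ {(Pi.single q₀ (1 : ℂ) : Q → ℂ)} := by
    intro v _
    have hv : v = ∑ q, v q • (Pi.single q (1 : ℂ) - Pi.single q₀ 1 : Q → ℂ)
        + (∑ q, v q) • (Pi.single q₀ (1 : ℂ) : Q → ℂ) := by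
      have h1 : v = ∑ q, v q • (Pi.single q (1 : ℂ) : Q → ℂ) := by
        funext x
        rw [Finset.sum_apply, Finset.sum_eq_single x]
        · simp
        · intro b _ hb
          simp [Pi.single_eq_of_ne hb.symm]
        · intro h; exact absurd (Finset.mem_univ x) h
      conv_lhs => rw [h1]
      simp only [smul_sub, Finset.sum_sub_distrib, Finset.sum_smul]
      abel
    rw [hv]
    refine Submodule.add_mem _ (Submodule.mem_sup_left ?_) (Submodule.mem_sup_right ?_)
    · exact Submodule.sum_mem _ fun q _ => Submodule.smul_mem _ _ (hdelta q)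
    · exact Submodule.smul_mem _ _ (Submodule.subset_span rfl)
  have h1 : Module.finrank ℂ (Q → ℂ) ≤ Module.finrank ℂ
      ↥(M ⊔ Submodule.span ℂ {(Pi.single q₀ (1 : ℂ) : Q → ℂ)}) := by
    rw [← finrank_top ℂ (Q → ℂ)]
    exact Submodule.finrank_mono htop
  have h2 := Submodule.finrank_add_le_finrank_add_finrank M
    (Submodule.span ℂ {(Pi.single q₀ (1 : ℂ) : Q → ℂ)})
  have h3 : Module.finrank ℂ ↥(Submodule.span ℂ {(Pi.single q₀ (1 : ℂ) : Q → ℂ)}) ≤ 1 :=
    (finrank_span_le_card _).trans (by simp)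
  rw [Module.finrank_pi, ← Nat.card_eq_fintype_card] at h1
  omega

omit [Finite Q] in
/-- Functions invariant under `s` and `u` are constant. -/
theorem h2_finrank_inv_inf_le [MulAction.IsPretransitive G Q] (s u : G)
    (hgen : Subgroup.closure {s, u} = ⊤) :
    Module.finrank ℂ ↥(h2_inv Q s ⊓ h2_inv Q u) ≤ 1 := by
  have hle : h2_inv Q s ⊓ h2_inv Q u ≤ Submodule.span ℂ {(fun _ => 1 : Q → ℂ)} := by
    rintro b ⟨hs, hu⟩
    rw [SetLike.mem_coe, h2_mem_inv] at hs hu
    have hall : ∀ g : G, g ∈ Subgroup.closure {s, u} → h2_rho Q g b = b := by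
      intro g hg
      induction hg using Subgroup.closure_induction with
      | mem x hx =>
        rcases hx with rfl | hx
        · exact hs
        · rw [Set.mem_singleton_iff] at hx; subst hx; exact hu
      | one => rw [map_one]; rfl
      | mul x y _ _ hx hy => rw [h2_rho_mul_apply, hy, hx]
      | inv x _ hx =>
        conv_lhs => rw [← hx]
        exact h2_rho_inv_apply_self x b
    by_cases hQ : Nonempty Q
    · obtain ⟨q₀⟩ := hQ
      have : b = b q₀ • (fun _ => 1 : Q → ℂ) := by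
        funext q
        obtain ⟨g, rfl⟩ := MulAction.exists_smul_eq G q q₀
        have := congrFun (hall g⁻¹ (by rw [hgen]; trivial)) q
        rw [h2_rho_apply, inv_inv] at this
        rw [this]
        simp
      rw [this]
      exact Submodule.smul_mem _ _ (Submodule.subset_span rfl)
    · have : b = 0 := by
        funext q
        exact absurd ⟨q⟩ hQ
      rw [this]
      exact Submodule.zero_mem _
  exact (Submodule.finrank_mono hle).trans ((finrank_span_le_card _).trans (by simp))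

/-- `finrank (ker norm) + finrank (invariants) ≤ |Q|`. -/
theorem h2_finrank_ker_norm_add (g : G) (m : ℕ) (hm : 0 < m) :
    Module.finrank ℂ ↥(LinearMap.ker (h2_norm Q g m)) + Module.finrank ℂ ↥(h2_inv Q g)
      ≤ Nat.card Q := by
  classical
  have := Fintype.ofFinite Q
  have h1 := Submodule.finrank_sup_add_finrank_inf_eq (LinearMap.ker (h2_norm Q g m)) (h2_inv Q g)
  rw [h2_ker_norm_inf_inv g m hm, finrank_bot, add_zero] at h1
  rw [← h1, Nat.card_eq_fintype_card, ← Module.finrank_pi ℂ (ι := Q)]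
  exact Submodule.finrank_le _

/-- **(ES-2b) the permutation-module dimension count.** -/
theorem h2_permCount : PermCountStatement := by
  intro G _ Q _ _ _ _ s u hgen hs hu m hm ht H hH1 hH2 hH3
  classical
  have := Fintype.ofFinite Q
  set t : G := s⁻¹ * u with ht_def
  have hu3 : h2_rho Q u ^ 3 = 1 := by
    rw [h2_rho_pow]; exact h2_rho_eq_one_of_trivial _ hu
  have htm : h2_rho Q t ^ m = 1 := by
    rw [h2_rho_pow]; exact h2_rho_eq_one_of_trivial _ ht
  set A : Submodule ℂ (Q → ℂ) := LinearMap.ker (h2_norm Q u 3) with hA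
  set I : Submodule ℂ (Q → ℂ) :=
    Submodule.comap (h2_rho Q s⁻¹) (LinearMap.ker (h2_norm Q t m)) with hI
  set M : Submodule ℂ (Q → ℂ) :=
    LinearMap.range (1 - h2_rho Q u) ⊔ LinearMap.range (h2_rho Q s - h2_rho Q u) with hM
  set B : Submodule ℂ (Q → ℂ) := Submodule.map (1 - h2_rho Q u) (h2_inv Q s) with hB
  -- inclusions
  have hr1 : LinearMap.range (1 - h2_rho Q u) ≤ A := by
    rintro _ ⟨v, rfl⟩
    rw [hA, LinearMap.mem_ker]
    have h := congrArg (fun f : Module.End ℂ (Q → ℂ) => f v) (h2_norm_mul_sub_one (Q := Q) u 3)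
    simp only [Module.End.mul_apply, hu3, sub_self, LinearMap.zero_apply] at h
    have h2 : (1 - h2_rho Q u) v = - ((h2_rho Q u - 1) v) := by
      simp only [LinearMap.sub_apply, Module.End.one_apply]; abel
    rw [h2, map_neg, h, neg_zero]
  have hr2 : LinearMap.range (h2_rho Q s - h2_rho Q u) ≤ I := by
    rintro _ ⟨v, rfl⟩
    rw [hI, Submodule.mem_comap, LinearMap.mem_ker]
    have h := congrArg (fun f : Module.End ℂ (Q → ℂ) => f v) (h2_norm_mul_sub_one (Q := Q) t m)
    simp only [Module.End.mul_apply, htm, sub_self, LinearMap.zero_apply] at h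
    have h2 : h2_rho Q s⁻¹ ((h2_rho Q s - h2_rho Q u) v) = - ((h2_rho Q t - 1) v) := by
      rw [LinearMap.sub_apply, map_sub, h2_rho_inv_apply_self, ← h2_rho_mul_apply,
        LinearMap.sub_apply, Module.End.one_apply]
      abel
    rw [h2, map_neg, h, neg_zero]
  have hMle : M ≤ A ⊔ I := sup_le_sup hr1 hr2
  have hBA : B ≤ A ⊓ I := by
    rintro _ ⟨b, hb, rfl⟩
    rw [SetLike.mem_coe, h2_mem_inv] at hb
    refine ⟨hr1 ⟨b, rfl⟩, hr2 ⟨b, ?_⟩⟩
    rw [LinearMap.sub_apply, LinearMap.sub_apply, Module.End.one_apply, hb]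
  have hHA : H ≤ A ⊓ I := fun w hw => ⟨hH1 w hw, hH2 w hw⟩
  have hHB : H ⊓ B = ⊥ := by
    rw [eq_bot_iff]
    rintro w ⟨hw, b, hb, hbw⟩
    rw [SetLike.mem_coe, h2_mem_inv] at hb
    rw [Submodule.mem_bot]
    refine hH3 w hw b hb ?_
    rw [← hbw, LinearMap.sub_apply, Module.End.one_apply]
  -- dimension counts
  have h1 : Module.finrank ℂ ↥A + Module.finrank ℂ ↥(h2_inv Q u) ≤ Nat.card Q :=
    h2_finrank_ker_norm_add (Q := Q) u 3 (by norm_num)
  have h2 := h2_finrank_ker_norm_add (Q := Q) t m hm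
  have hIfin : Module.finrank ℂ ↥I = Module.finrank ℂ ↥(LinearMap.ker (h2_norm Q t m)) := by
    have : I = Submodule.map ((h2_rhoEquiv s : (Q → ℂ) ≃ₗ[ℂ] (Q → ℂ)) : (Q → ℂ) →ₗ[ℂ] (Q → ℂ))
        (LinearMap.ker (h2_norm Q t m)) := by
      ext w
      rw [hI, Submodule.mem_comap, Submodule.mem_map]
      constructor
      · intro hw
        exact ⟨_, hw, h2_rho_apply_inv_self s w⟩
      · rintro ⟨v, hv, rfl⟩
        rw [LinearEquiv.coe_coe, h2_rhoEquiv_apply, h2_rho_inv_apply_self]
        exact hv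
    rw [this, LinearEquiv.finrank_map_eq]
  have h3 : Nat.card Q ≤ Module.finrank ℂ ↥M + 1 := h2_finrank_sup_range (Q := Q) s u hgen
  have h3' : Module.finrank ℂ ↥M ≤ Module.finrank ℂ ↥(A ⊔ I) := Submodule.finrank_mono hMle
  have h4 := Submodule.finrank_sup_add_finrank_inf_eq A I
  have h5 : Module.finrank ℂ ↥H + Module.finrank ℂ ↥B ≤ Module.finrank ℂ ↥(A ⊓ I) := by
    have h := Submodule.finrank_sup_add_finrank_inf_eq H B
    rw [hHB, finrank_bot, add_zero] at h
    rw [← h]
    exact Submodule.finrank_mono (sup_le hHA hBA)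
  have h6 : Module.finrank ℂ ↥(h2_inv Q s) ≤ Module.finrank ℂ ↥B + 1 := by
    set f : ↥(h2_inv Q s) →ₗ[ℂ] (Q → ℂ) := (1 - h2_rho Q u) ∘ₗ (h2_inv Q s).subtype with hf
    have hrange : LinearMap.range f = B := by
      rw [hf, LinearMap.range_comp, Submodule.range_subtype]
    have hker : Module.finrank ℂ ↥(LinearMap.ker f) ≤ 1 := by
      rw [← Submodule.finrank_map_subtype_eq]
      refine (Submodule.finrank_mono ?_).trans (h2_finrank_inv_inf_le (Q := Q) s u hgen)
      rintro _ ⟨b, hb, rfl⟩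
      refine ⟨b.2, ?_⟩
      rw [SetLike.mem_coe, LinearMap.mem_ker] at hb
      exact hb
    have := LinearMap.finrank_range_add_finrank_ker f
    rw [hrange] at this
    omega
  rw [hIfin] at h4
  have hfin : Module.finrank ℂ ↥H + Module.finrank ℂ ↥(h2_inv Q s) + Module.finrank ℂ ↥(h2_inv Q u)
      + Module.finrank ℂ ↥(h2_inv Q t) ≤ Nat.card Q + 2 := by
    omega
  exact_mod_cast hfin

end Count

end Fermat.Agent.Lib.S21
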